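import Mathlib
import Fermat.Agent.MU.Lib.Deuring.Main
import Fermat.Agent.MU.Lib.GaussInt.ModularInst

section MergeWrap_Lib_FF_RedCore -- from Lib/FF/RedCore.lean

set_option autoImplicit false

/-!
# FF seat D (helper79): Deuring's reduction map, API

Abstract part, for ANY constant reduction `S : Deuring.ValSetup K F k Fk`:

* `IsReduction S r` : the three clauses (push), (gr), (deg) of `Deuring.exists_reduction`;
  `exists_isReduction`, `IsReduction.unique`, `IsReduction.surjective`
* `redDiv r : Divisor K F →+ Divisor k Fk`, `redDiv_nonneg`, `redDiv_mono`, `IsReduction.degree_redDiv`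
* `IsReduction.redDiv_divOf_of_unit`, `IsReduction.redDiv_divOf` (`r_* div f = div (red (f / c))`),
  `IsReduction.isPrincipal`
* `IsReduction.redSpace_le` (ALL divisors), `IsReduction.ell_le`, `IsReduction.redSpace_eq`
  (degree `≥ 2g`), `IsReduction.redSpace_eq_of_ell` (as soon as `ℓ_k (r_* B) ≤ ℓ (B)`)
* `IsReduction.redDegZero`, `IsReduction.redPic0 : Pic0 K F →+ Pic0 k Fk`, `redPic0_mk`.

Modular instance at a place `A` of `ℚ̄` over `ℓ ∤ M` (genus equality `hg` a hypothesis):
`redPlace A ℓ M hℓ hA hℓM hg`, `isReduction_redPlace`.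
-/

noncomputable section

open AlgebraicCurve Fermat.Agent.RR Fermat.Agent.Deuring

namespace Fermat.Agent.FF

variable {K F k Fk : Type*} [Field K] [Field F] [Algebra K F]
  [Field k] [Field Fk] [Algebra k Fk]

/-- `r` is a Deuring reduction of places for the constant reduction `S`. -/
structure IsReduction (S : ValSetup K F k Fk) (r : Place K F → Place k Fk) : Prop where
  /-- `r_* (div f) = div (red f)` for units `f` of the valuation ring -/
  push : ∀ f : F, f ∈ S.Ov → f⁻¹ ∈ S.Ov → f ≠ 0 → ∀ Q : Place k Fk,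
    Finsupp.mapDomain r (divOf S.hF f) Q = Q.ord (S.red f)
  /-- `red (L(B) ∩ Ov) = L_k (r_* B)` in degree `≥ 2g` -/
  gr : ∀ B : Divisor K F, 2 * (genusFF K F : ℤ) ≤ Divisor.degree B →
    redSpace S (riemannRochSpace B) = riemannRochSpace (Finsupp.mapDomain r B)
  /-- `deg r_* B = deg B` -/
  deg : ∀ B : Divisor K F, Divisor.degree (Finsupp.mapDomain r B) = Divisor.degree B

/-- **Existence of Deuring's reduction map.** -/
theorem exists_isReduction (S : ValSetup K F k Fk) (hL : HasLattice S) [Infinite k]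
    (hg : genusFF K F = genusFF k Fk) : ∃ r : Place K F → Place k Fk, IsReduction S r := by
  obtain ⟨r, h1, h2, h3⟩ := exists_reduction S hL hg
  exact ⟨r, h1, h2, h3⟩

/-- the push-forward of divisors along a map of places. -/
def redDiv (r : Place K F → Place k Fk) : Divisor K F →+ Divisor k Fk :=
  Finsupp.mapDomain.addMonoidHom r

theorem redDiv_apply (r : Place K F → Place k Fk) (D : Divisor K F) :
    redDiv r D = Finsupp.mapDomain r D := rfl

@[simp]
theorem redDiv_single (r : Place K F → Place k Fk) (P : Place K F) (n : ℤ) :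
    redDiv r (Finsupp.single P n) = Finsupp.single (r P) n := by
  rw [redDiv_apply, Finsupp.mapDomain_single]

theorem redDiv_nonneg (r : Place K F → Place k Fk) {D : Divisor K F} (hD : 0 ≤ D) :
    0 ≤ redDiv r D := by
  classical
  intro Q
  rw [redDiv_apply, Finsupp.mapDomain, Finsupp.sum, Finsupp.coe_zero, Pi.zero_apply,
    Finsupp.finsetSum_apply]
  refine Finset.sum_nonneg fun P _ => ?_
  rw [Finsupp.single_apply]
  split_ifs
  · exact hD P
  · exact le_rfl

theorem redDiv_mono (r : Place K F → Place k Fk) {D D' : Divisor K F} (h : D ≤ D') :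
    redDiv r D ≤ redDiv r D' := by
  have h1 : 0 ≤ redDiv r (D' - D) := redDiv_nonneg r (sub_nonneg.mpr h)
  rw [map_sub] at h1
  exact sub_nonneg.mp h1

/-- a place in the support of `r_* D` is the reduction of a place in the support of `D`. -/
theorem exists_of_redDiv_apply_ne_zero (r : Place K F → Place k Fk) {D : Divisor K F}
    {Q : Place k Fk} (h : redDiv r D Q ≠ 0) : ∃ P : Place K F, D P ≠ 0 ∧ r P = Q := by
  classical
  have hQ : Q ∈ (Finsupp.mapDomain r D).support := Finsupp.mem_support_iff.mpr h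
  have := Finsupp.mapDomain_support hQ
  obtain ⟨P, hP, rfl⟩ := Finset.mem_image.mp this
  exact ⟨P, Finsupp.mem_support_iff.mp hP, rfl⟩

/-- the degree of a push-forward (all places have degree one). -/
theorem degree_redDiv_of_isRRField (hF : IsRRField K F) (hFk : IsRRField k Fk)
    (r : Place K F → Place k Fk) (D : Divisor K F) :
    Divisor.degree (redDiv r D) = Divisor.degree D := by
  rw [redDiv_apply, degree_eq_sum hFk, degree_eq_sum hF]
  have h1 : ∑ v ∈ (Finsupp.mapDomain r D).support, (Finsupp.mapDomain r D) v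
      = (Finsupp.mapDomain r D).sum fun _ n => n := rfl
  have h2 : ∑ v ∈ D.support, D v = D.sum fun _ n => n := rfl
  rw [h1, h2, Finsupp.sum_mapDomain_index (fun _ => rfl) (fun _ _ _ => rfl)]

namespace IsReduction

variable {S : ValSetup K F k Fk} {r : Place K F → Place k Fk}

@[simp]
theorem degree_redDiv (hr : IsReduction S r) (B : Divisor K F) :
    Divisor.degree (redDiv r B) = Divisor.degree B :=
  hr.deg B

/-- (push) for units of the valuation ring. -/
theorem redDiv_divOf_of_unit (hr : IsReduction S r) {f : F} (hf : f ∈ S.Ov) (hinv : f⁻¹ ∈ S.Ov)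
    (hf0 : f ≠ 0) : redDiv r (divOf S.hF f) = divOf S.hFk (S.red f) := by
  ext Q
  rw [divOf_apply]
  exact hr.push f hf hinv hf0 Q

/-- (GR): the reduction of `L(B)` is `L(r_* B)` in degree `≥ 2g`. -/
theorem redSpace_eq (hr : IsReduction S r) {B : Divisor K F}
    (hB : 2 * (genusFF K F : ℤ) ≤ Divisor.degree B) :
    redSpace S (riemannRochSpace B) = riemannRochSpace (redDiv r B) :=
  hr.gr B hB

/-- (push) for an arbitrary nonzero function: scale it to a unit. -/
theorem redDiv_divOf (hr : IsReduction S r) {f : F} (hf : f ≠ 0) :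
    ∃ c : K, c ≠ 0 ∧ f * (algebraMap K F c)⁻¹ ∈ S.Ov ∧ S.red (f * (algebraMap K F c)⁻¹) ≠ 0 ∧
      redDiv r (divOf S.hF f) = divOf S.hFk (S.red (f * (algebraMap K F c)⁻¹)) := by
  obtain ⟨c, hc, hu, hui⟩ := S.scale f hf
  have hc' : algebraMap K F c ≠ 0 := by
    rwa [Ne, map_eq_zero]
  have hu0 : f * (algebraMap K F c)⁻¹ ≠ 0 := mul_ne_zero hf (inv_ne_zero hc')
  refine ⟨c, hc, hu, S.red_ne_zero hu hui hu0, ?_⟩
  rw [← hr.redDiv_divOf_of_unit hu hui hu0]
  congr 1
  ext v
  rw [divOf_apply, divOf_apply, v.ord_mul hf (inv_ne_zero hc'), v.ord_inv,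
    Fermat.Agent.S24Res.ord_algebraMap]
  simp

/-- `r_*` maps principal divisors to principal divisors. -/
theorem isPrincipal (hr : IsReduction S r) {D : Divisor K F} (hD : Divisor.IsPrincipal D) :
    Divisor.IsPrincipal (redDiv r D) := by
  obtain ⟨f, hf, hfD⟩ := hD
  have hD' : D = divOf S.hF f := by
    ext v
    rw [hfD v, divOf_apply]
  obtain ⟨c, -, -, hne, heq⟩ := hr.redDiv_divOf hf
  refine ⟨S.red (f * (algebraMap K F c)⁻¹), hne, fun Q => ?_⟩
  rw [hD', heq, divOf_apply]

theorem mem_principal (hr : IsReduction S r) {D : Divisor K F}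
    (hD : D ∈ Divisor.principal (K := K) (F := F)) :
    redDiv r D ∈ Divisor.principal (K := k) (F := Fk) :=
  hr.isPrincipal hD

/-- semicontinuity: the reduction of `L(D)` lies in `L(r_* D)`, for EVERY divisor `D`. -/
theorem redSpace_le (hr : IsReduction S r) (D : Divisor K F) :
    redSpace S (riemannRochSpace D) ≤ riemannRochSpace (redDiv r D) := by
  refine Submodule.span_le.mpr ?_
  rintro y ⟨x, hxD, hxO, rfl⟩
  by_cases hy : S.red x = 0
  · rw [hy]
    exact Submodule.zero_mem _
  · have hx0 : x ≠ 0 := S.ne_zero_of_red_ne_zero hy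
    have hinv : x⁻¹ ∈ S.Ov := S.inv_mem_of_red_ne_zero hy
    rw [SetLike.mem_coe, mem_riemannRochSpace_iff_le S.hFk hy,
      ← hr.redDiv_divOf_of_unit hxO hinv hx0, ← map_neg]
    exact redDiv_mono r ((mem_riemannRochSpace_iff_le S.hF hx0).mp hxD)

/-- the reduction of an integral element of `L(D)` lies in `L(r_* D)`. -/
theorem red_mem (hr : IsReduction S r) {D : Divisor K F} {x : F} (hxD : x ∈ riemannRochSpace D)
    (hxO : x ∈ S.Ov) : S.red x ∈ riemannRochSpace (redDiv r D) :=
  hr.redSpace_le D (red_mem_redSpace S _ hxD hxO)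

/-- semicontinuity of `ℓ`: `ℓ (B) ≤ ℓ_k (r_* B)` for ALL `B`. -/
theorem ell_le (hr : IsReduction S r) (hL : HasLattice S) (D : Divisor K F) :
    ell D ≤ ell (redDiv r D) := by
  have : FiniteDimensional K (riemannRochSpace D) := finite_riemannRochSpace S.hF D
  have : FiniteDimensional k (riemannRochSpace (redDiv r D)) :=
    finite_riemannRochSpace S.hFk _
  rw [ell_def, ell_def, ← finrank_redSpace S hL (riemannRochSpace D)]
  exact Submodule.finrank_mono (hr.redSpace_le D)

/-- the reduction of `L(B)` is `L(r_* B)` as soon as `ℓ_k (r_* B) ≤ ℓ (B)`. -/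
theorem redSpace_eq_of_ell (hr : IsReduction S r) (hL : HasLattice S) {D : Divisor K F}
    (h : ell (redDiv r D) ≤ ell D) :
    redSpace S (riemannRochSpace D) = riemannRochSpace (redDiv r D) := by
  have : FiniteDimensional K (riemannRochSpace D) := finite_riemannRochSpace S.hF D
  have : FiniteDimensional k (riemannRochSpace (redDiv r D)) :=
    finite_riemannRochSpace S.hFk _
  refine Submodule.eq_of_le_of_finrank_le (hr.redSpace_le D) ?_
  rw [finrank_redSpace S hL (riemannRochSpace D)]
  exact h

/-- every element of `L_k (r_* B)` lifts to an integral element of `L(B)`, if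
`ℓ_k (r_* B) ≤ ℓ (B)`. -/
theorem exists_lift_of_ell (hr : IsReduction S r) (hL : HasLattice S) {D : Divisor K F}
    (h : ell (redDiv r D) ≤ ell D) {y : Fk} (hy : y ∈ riemannRochSpace (redDiv r D)) :
    ∃ x ∈ riemannRochSpace D, x ∈ S.Ov ∧ S.red x = y := by
  rw [← hr.redSpace_eq_of_ell hL h] at hy
  exact (mem_redSpace_iff S _).mp hy

/-- every element of `L_k (r_* B)` lifts to an integral element of `L(B)`, in degree `≥ 2g`. -/
theorem exists_lift (hr : IsReduction S r) {B : Divisor K F}
    (hB : 2 * (genusFF K F : ℤ) ≤ Divisor.degree B) {y : Fk}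
    (hy : y ∈ riemannRochSpace (redDiv r B)) :
    ∃ x ∈ riemannRochSpace B, x ∈ S.Ov ∧ S.red x = y := by
  rw [← hr.redSpace_eq hB] at hy
  exact (mem_redSpace_iff S _).mp hy

/-- UNIQUENESS of the reduction map. -/
theorem unique (hr : IsReduction S r) {r' : Place K F → Place k Fk} (hr' : IsReduction S r')
    (hg : genusFF K F = genusFF k Fk) : r = r' := by
  obtain ⟨P₀⟩ := nonempty_place S.hF
  funext P
  set B : Divisor K F := Finsupp.single P₀ (2 * (genusFF K F : ℤ)) with hBdef
  have hB : 2 * (genusFF K F : ℤ) ≤ Divisor.degree B := by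
    rw [hBdef, degree_single_one S.hF]
  have hB' : 2 * (genusFF K F : ℤ) ≤ Divisor.degree (B + Finsupp.single P 1) := by
    have hP : Divisor.degree (Finsupp.single P (1 : ℤ)) = 1 := degree_single_one S.hF P 1
    rw [map_add, hP]
    linarith
  have key : ∀ D : Divisor K F, 2 * (genusFF K F : ℤ) ≤ Divisor.degree D →
      redDiv r D = redDiv r' D := by
    intro D hD
    refine eq_of_riemannRochSpace_eq S.hFk ?_ ?_ ?_
    · rw [hr.degree_redDiv, ← hg]
      exact hD
    · rw [hr'.degree_redDiv, ← hg]
      exact hD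
    · rw [← hr.redSpace_eq hD, ← hr'.redSpace_eq hD]
  have e2 := key _ hB'
  rw [map_add, map_add, key B hB, redDiv_single r P 1, redDiv_single r' P 1] at e2
  have e3 := add_left_cancel e2
  exact Finsupp.single_left_injective (by norm_num : (1 : ℤ) ≠ 0) e3

/-- SURJECTIVITY of the reduction map: every place of the special fibre is the reduction of a
place of the generic fibre. -/
theorem surjective (hr : IsReduction S r) (hg : genusFF K F = genusFF k Fk) :
    Function.Surjective r := by
  intro Q
  obtain ⟨P₀⟩ := nonempty_place S.hF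
  set B : Divisor K F := Finsupp.single P₀ (2 * (genusFF K F : ℤ) + 1) with hBdef
  have hBdeg : Divisor.degree B = 2 * (genusFF K F : ℤ) + 1 := by
    rw [hBdef, degree_single_one S.hF]
  have hB : 2 * (genusFF K F : ℤ) ≤ Divisor.degree B := by
    rw [hBdeg]
    linarith
  -- a nonzero function of `L_k (r_* B - Q)`
  have hdeg : 2 * (genusFF k Fk : ℤ) ≤
      Divisor.degree (redDiv r B - Finsupp.single Q 1) := by
    rw [map_sub, hr.degree_redDiv, hBdeg, degree_single_one S.hFk, ← hg]
    linarith
  obtain ⟨y, hy, hy0, -⟩ := exists_ord_eq S.hFk hdeg Q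
  have hy' : y ∈ riemannRochSpace (redDiv r B) :=
    riemannRochSpace_mono (sub_le_self _ (Finsupp.single_nonneg.mpr zero_le_one)) hy
  obtain ⟨x, hxB, hxO, hxy⟩ := hr.exists_lift hB hy'
  have hred : S.red x ≠ 0 := by
    rw [hxy]
    exact hy0
  have hx0 : x ≠ 0 := S.ne_zero_of_red_ne_zero hred
  have hinv : x⁻¹ ∈ S.Ov := S.inv_mem_of_red_ne_zero hred
  have hpush := hr.redDiv_divOf_of_unit hxO hinv hx0
  by_cases hQ : r P₀ = Q
  · exact ⟨P₀, hQ⟩
  · -- `ord_Q y ≥ 1`
    have hord : 0 < Q.ord y := by
      have := ((mem_riemannRochSpace_iff.mp hy) Q).resolve_left hy0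
      rw [Finsupp.sub_apply, hBdef, redDiv_single, Finsupp.single_eq_of_ne' hQ,
        Finsupp.single_eq_same] at this
      omega
    have hne : redDiv r (divOf S.hF x) Q ≠ 0 := by
      rw [hpush, divOf_apply, hxy]
      exact ne_of_gt hord
    obtain ⟨P, -, hP⟩ := exists_of_redDiv_apply_ne_zero r hne
    exact ⟨P, hP⟩

/-- the reduction of divisors of degree zero. -/
def redDegZero (hr : IsReduction S r) :
    Divisor.degZero (K := K) (F := F) →+ Divisor.degZero (K := k) (F := Fk) :=
  ((redDiv r).comp (Divisor.degZero (K := K) (F := F)).subtype).codRestrict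
    (Divisor.degZero (K := k) (F := Fk)) fun D => by
      rw [Divisor.mem_degZero]
      show Divisor.degree (redDiv r D.1) = 0
      rw [hr.degree_redDiv]
      exact D.2

@[simp]
theorem coe_redDegZero (hr : IsReduction S r) (D : Divisor.degZero (K := K) (F := F)) :
    (hr.redDegZero D : Divisor k Fk) = redDiv r D.1 := rfl

/-- **Deuring's reduction on `Pic⁰`.** -/
def redPic0 (hr : IsReduction S r) : Pic0 K F →+ Pic0 k Fk :=
  QuotientAddGroup.map _ _ hr.redDegZero fun D hD => by
    rw [AddSubgroup.mem_comap, AddSubgroup.mem_addSubgroupOf, coe_redDegZero]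
    exact hr.mem_principal (AddSubgroup.mem_addSubgroupOf.mp hD)

@[simp]
theorem redPic0_mk (hr : IsReduction S r) (D : Divisor.degZero (K := K) (F := F)) :
    hr.redPic0 (Pic0.mk D) = Pic0.mk (hr.redDegZero D) := rfl

end IsReduction

/-! ### the modular instance -/

section Modular

set_option synthInstance.maxHeartbeats 400000

open ModularCurve Fermat.Agent.GaussInt

/-- existence of the reduction map for the modular Gauss valuation. -/
theorem exists_isReduction_modular (A : ValuationSubring (AlgebraicClosure ℚ)) (ℓ M : ℕ)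
    [NeZero M] (hℓ : ℓ.Prime) (hA : A.LiesOverPrime ℓ) (hℓM : ¬ ℓ ∣ M)
    (hg : genusFF (AlgebraicClosure ℚ) (modularFunctionFieldBar M) =
      genusFF (IsLocalRing.ResidueField A)
        (modularFunctionFieldFullC (IsLocalRing.ResidueField A) M)) :
    ∃ r : Place (AlgebraicClosure ℚ) (modularFunctionFieldBar M) →
        Place (IsLocalRing.ResidueField A)
          (modularFunctionFieldFullC (IsLocalRing.ResidueField A) M),
      IsReduction (modularValSetup A ℓ M hℓ hA hℓM) r :=
  haveI := infinite_residue A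
  exists_isReduction _ (hasLattice_modularValSetup A ℓ M hℓ hA hℓM) hg

/-- **Deuring's reduction of the places of `X₀(M)` at a place `A` of `ℚ̄` over `ℓ ∤ M`.** -/
def redPlace (A : ValuationSubring (AlgebraicClosure ℚ)) (ℓ M : ℕ)
    [NeZero M] (hℓ : ℓ.Prime) (hA : A.LiesOverPrime ℓ) (hℓM : ¬ ℓ ∣ M)
    (hg : genusFF (AlgebraicClosure ℚ) (modularFunctionFieldBar M) =
      genusFF (IsLocalRing.ResidueField A)
        (modularFunctionFieldFullC (IsLocalRing.ResidueField A) M)) :
    Place (AlgebraicClosure ℚ) (modularFunctionFieldBar M) →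
      Place (IsLocalRing.ResidueField A)
        (modularFunctionFieldFullC (IsLocalRing.ResidueField A) M) :=
  (exists_isReduction_modular A ℓ M hℓ hA hℓM hg).choose

theorem isReduction_redPlace (A : ValuationSubring (AlgebraicClosure ℚ)) (ℓ M : ℕ)
    [NeZero M] (hℓ : ℓ.Prime) (hA : A.LiesOverPrime ℓ) (hℓM : ¬ ℓ ∣ M)
    (hg : genusFF (AlgebraicClosure ℚ) (modularFunctionFieldBar M) =
      genusFF (IsLocalRing.ResidueField A)
        (modularFunctionFieldFullC (IsLocalRing.ResidueField A) M)) :
    IsReduction (modularValSetup A ℓ M hℓ hA hℓM) (redPlace A ℓ M hℓ hA hℓM hg) :=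
  (exists_isReduction_modular A ℓ M hℓ hA hℓM hg).choose_spec

theorem redPlace_surjective (A : ValuationSubring (AlgebraicClosure ℚ)) (ℓ M : ℕ)
    [NeZero M] (hℓ : ℓ.Prime) (hA : A.LiesOverPrime ℓ) (hℓM : ¬ ℓ ∣ M)
    (hg : genusFF (AlgebraicClosure ℚ) (modularFunctionFieldBar M) =
      genusFF (IsLocalRing.ResidueField A)
        (modularFunctionFieldFullC (IsLocalRing.ResidueField A) M)) :
    Function.Surjective (redPlace A ℓ M hℓ hA hℓM hg) :=
  (isReduction_redPlace A ℓ M hℓ hA hℓM hg).surjective hg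

end Modular

end Fermat.Agent.FF
end
end MergeWrap_Lib_FF_RedCore
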