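import Mathlib
import Fermat.Agent.MU.Lib.FF.RedCore
import Fermat.Agent.Lib.FF.Value
import Fermat.Agent.S18.KeyBasic
import Fermat.Agent.MU.Lib.RR.Hurwitz.FibreDeg
import Fermat.Agent.MU.Lib.Deuring.FundIneqAux

section MergeWrap_Lib_FF_RedValue -- from Lib/FF/RedValue.lean

set_option autoImplicit false

noncomputable section

namespace Fermat.Agent.FF

open AlgebraicCurve Fermat.Agent.RR Fermat.Agent.Deuring

variable {K F k Fk : Type*} [Field K] [Field F] [Algebra K F]
  [Field k] [Field Fk] [Algebra k Fk]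

variable {S : ValSetup K F k Fk} {r : Place K F → Place k Fk}

/-- the reduction package of the KEY LEMMA (S18) attached to a Deuring reduction. -/
def IsReduction.redSetup (hr : IsReduction S r) : Fermat.Agent.S18Key.RedSetup K F k Fk where
  A := S.A
  Ov := S.Ov
  res := S.res
  ρ := S.ρ
  r := r
  hF := S.hF
  mem_Ov_iff := S.mem_Ov_iff
  ρ_algebraMap := S.ρ_algebraMap
  ρ_eq_zero_iff := S.ρ_eq_zero_iff
  scale := S.scale
  push := fun f hf hfi hf0 Q => by
    rw [hr.push f hf hfi hf0 Q, ValSetup.red, dif_pos hf]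

theorem IsReduction.redSetup_red (hr : IsReduction S r) (f : F) :
    hr.redSetup.red f = S.red f := rfl

/-! ### values -/

/-- the value at `P` of an integral function without poles in the residue disc of `P` is
integral. -/
theorem IsReduction.valueAt_mem (hr : IsReduction S r) {f : F} (hf : f ∈ S.Ov) (P : Place K F)
    (hreg : ∀ P', r P' = r P → 0 ≤ P'.ord f) : valueAt S.hF P f ∈ S.A := by
  have hfP : f ∈ P.toValuationSubring := mem_of_ord_nonneg' P (hreg P rfl)
  have hspec := valueAt_spec S.hF P hfP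
  exact Fermat.Agent.S18Key.value_mem_A (S := hr.redSetup) hf P hreg _ hspec

/-- the reduction of an integral function without poles in the residue disc of `P` is regular
at `r P`, with value the residue of the value. -/
theorem IsReduction.red_spec (hr : IsReduction S r) {f : F} (hf : f ∈ S.Ov) (P : Place K F)
    (hreg : ∀ P', r P' = r P → 0 ≤ P'.ord f) (hc : valueAt S.hF P f ∈ S.A) :
    S.red f = algebraMap k Fk (S.res ⟨valueAt S.hF P f, hc⟩) ∨
      0 < (r P).ord (S.red f - algebraMap k Fk (S.res ⟨valueAt S.hF P f, hc⟩)) := by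
  have hfP : f ∈ P.toValuationSubring := mem_of_ord_nonneg' P (hreg P rfl)
  have hspec := valueAt_spec S.hF P hfP
  have h1 := Fermat.Agent.S18Key.value_red (S := hr.redSetup) hf P hreg _ hc hspec
  rw [hr.redSetup_red, hr.redSetup_red, S.red_algebraMap hc] at h1
  exact h1

/-- **evaluation commutes with reduction.** -/
theorem IsReduction.res_valueAt (hr : IsReduction S r) {f : F} (hf : f ∈ S.Ov) (P : Place K F)
    (hreg : ∀ P', r P' = r P → 0 ≤ P'.ord f) (hc : valueAt S.hF P f ∈ S.A) :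
    valueAt S.hFk (r P) (S.red f) = S.res ⟨valueAt S.hF P f, hc⟩ := by
  rcases hr.red_spec hf P hreg hc with h1 | h1
  · rw [h1, valueAt_algebraMap]
  · exact valueAt_eq_of_ord_pos S.hFk (r P) h1

/-- the reduction of an integral function regular on the residue disc of `P` is regular at
`r P`. -/
theorem IsReduction.red_regular (hr : IsReduction S r) {f : F} (hf : f ∈ S.Ov) (P : Place K F)
    (hreg : ∀ P', r P' = r P → 0 ≤ P'.ord f) : S.red f ∈ (r P).toValuationSubring := by
  have hc := hr.valueAt_mem hf P hreg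
  rcases hr.red_spec hf P hreg hc with h1 | h1
  · rw [h1]
    exact (r P).algebraMap_mem' _
  · have h2 := mem_of_ord_nonneg' (r P) h1.le
    have h3 := add_mem h2 ((r P).algebraMap_mem' (S.res ⟨valueAt S.hF P f, hc⟩))
    rwa [sub_add_cancel] at h3

/-- **units from distinct residues**: if the reductions of `f` take distinct values at `r P` and
`r P'` then `f(P) - f(P')` is a unit of `A`. -/
theorem IsReduction.valuation_valueAt_sub (hr : IsReduction S r) {f : F} (hf : f ∈ S.Ov)
    (P P' : Place K F) (hreg : ∀ P'', r P'' = r P → 0 ≤ P''.ord f)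
    (hreg' : ∀ P'', r P'' = r P' → 0 ≤ P''.ord f)
    (hne : valueAt S.hFk (r P) (S.red f) ≠ valueAt S.hFk (r P') (S.red f)) :
    S.A.valuation (valueAt S.hF P f - valueAt S.hF P' f) = 1 := by
  have hc := hr.valueAt_mem hf P hreg
  have hc' := hr.valueAt_mem hf P' hreg'
  rw [hr.res_valueAt hf P hreg hc, hr.res_valueAt hf P' hreg' hc'] at hne
  have hmem : valueAt S.hF P f - valueAt S.hF P' f ∈ S.A := sub_mem hc hc'
  have hres : S.res ⟨valueAt S.hF P f - valueAt S.hF P' f, hmem⟩ ≠ 0 := by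
    have e : (⟨valueAt S.hF P f - valueAt S.hF P' f, hmem⟩ : S.A)
        = ⟨valueAt S.hF P f, hc⟩ - ⟨valueAt S.hF P' f, hc'⟩ := rfl
    rw [e, map_sub]
    exact sub_ne_zero.mpr hne
  -- a constant with nonzero residue is a unit of `A`
  have hne0 : valueAt S.hF P f - valueAt S.hF P' f ≠ 0 := by
    intro h0
    apply hres
    have : (⟨valueAt S.hF P f - valueAt S.hF P' f, hmem⟩ : S.A) = 0 := Subtype.ext h0
    rw [this, map_zero]
  have hred : S.red (algebraMap K F (valueAt S.hF P f - valueAt S.hF P' f)) ≠ 0 := by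
    rw [S.red_algebraMap hmem]
    exact fun h0 => hres ((map_eq_zero _).mp h0)
  have hinv : (algebraMap K F (valueAt S.hF P f - valueAt S.hF P' f))⁻¹ ∈ S.Ov :=
    S.inv_mem_of_red_ne_zero hred
  rw [← map_inv₀, S.mem_Ov_iff] at hinv
  have h1 : S.A.valuation (valueAt S.hF P f - valueAt S.hF P' f) ≤ 1 :=
    (S.A.valuation_le_one_iff _).mpr hmem
  have h2 : S.A.valuation (valueAt S.hF P f - valueAt S.hF P' f)⁻¹ ≤ 1 :=
    (S.A.valuation_le_one_iff _).mpr hinv
  rw [map_inv₀] at h2
  have h3 : S.A.valuation (valueAt S.hF P f - valueAt S.hF P' f) ≠ 0 :=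
    (Valuation.ne_zero_iff _).mpr hne0
  have h4 : 1 ≤ S.A.valuation (valueAt S.hF P f - valueAt S.hF P' f) := by
    rwa [inv_le_one₀ (zero_lt_iff.mpr h3)] at h2
  exact le_antisymm h1 h4

/-! ### fibres -/

section Fibre

variable {x : F}

/-- the reduction of `x - t` for `t ∈ A`. -/
theorem red_sub_const (hx : x ∈ S.Ov) {t : K} (ht : t ∈ S.A) :
    S.red (x - algebraMap K F t) = S.red x - algebraMap k Fk (S.res ⟨t, ht⟩) := by
  rw [S.red_sub hx (S.algebraMap_mem ht), S.red_algebraMap ht]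

theorem red_sub_const_ne_zero (hx : x ∈ S.Ov) (htr : Transcendental k (S.red x)) {t : K}
    (ht : t ∈ S.A) : S.red (x - algebraMap K F t) ≠ 0 := by
  rw [red_sub_const hx ht]
  intro h0
  apply htr
  rw [sub_eq_zero] at h0
  rw [h0]
  exact isAlgebraic_algebraMap _

/-- a comparison of effective divisors: if `X - Y = div f`, `X, Y ≥ 0` and
`deg Y = deg (f)_∞` then `Y = (f)_∞` and `X = (f)_0`. -/
theorem eq_poleDiv_of_sub_eq_divOf (h : IsRRField k Fk) {X Y : Divisor k Fk} (hX : 0 ≤ X)
    (hY : 0 ≤ Y) (f : Fk) (hXY : X - Y = divOf h f)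
    (hdeg : Divisor.degree Y = Divisor.degree (poleDiv h f)) :
    Y = poleDiv h f ∧ X = poleDiv h f⁻¹ := by
  have hD : 0 ≤ Y - poleDiv h f := by
    rw [Finsupp.le_def]
    intro Q
    rw [Finsupp.coe_zero, Pi.zero_apply, Finsupp.sub_apply, poleDiv_apply]
    have h1 : X Q - Y Q = Q.ord f := by
      have := congrArg (fun D : Divisor k Fk => D Q) hXY
      simpa [divOf_apply] using this
    have h2 : 0 ≤ X Q := by
      have := Finsupp.le_def.mp hX Q
      simpa using this
    have h3 : 0 ≤ Y Q := by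
      have := Finsupp.le_def.mp hY Q
      simpa using this
    rcases le_total (-(Q.ord f)) 0 with h4 | h4
    · rw [max_eq_right h4]
      omega
    · rw [max_eq_left h4]
      omega
  have hD0 : Y - poleDiv h f = 0 :=
    eq_zero_of_nonneg_of_degree_eq_zero h hD (by rw [map_sub, hdeg, sub_self])
  have hY' : Y = poleDiv h f := sub_eq_zero.mp hD0
  refine ⟨hY', ?_⟩
  have h5 := fi_divOf_eq h f
  rw [h5, hY'] at hXY
  exact sub_left_injective hXY

variable (hr : IsReduction S r) (hx : x ∈ S.Ov) (htr : Transcendental k (S.red x))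
  (hdeg : Divisor.degree (poleDiv S.hFk (S.red x)) = Divisor.degree (poleDiv S.hF x))

include hr hx htr hdeg

/-- `r_* (x - t)_∞ = (x̄ - t̄)_∞` and `r_* (x - t)_0 = (x̄ - t̄)_0`. -/
theorem IsReduction.redDiv_poleDiv_zeroDiv {t : K} (ht : t ∈ S.A) :
    redDiv r (poleDiv S.hF (x - algebraMap K F t)) = poleDiv S.hFk (S.red (x - algebraMap K F t)) ∧
      redDiv r (poleDiv S.hF (x - algebraMap K F t)⁻¹)
        = poleDiv S.hFk (S.red (x - algebraMap K F t))⁻¹ := by
  have hu := red_sub_const_ne_zero hx htr ht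
  have hmem : x - algebraMap K F t ∈ S.Ov := sub_mem hx (S.algebraMap_mem ht)
  have hinv : (x - algebraMap K F t)⁻¹ ∈ S.Ov := S.inv_mem_of_red_ne_zero hu
  have hne : x - algebraMap K F t ≠ 0 := S.ne_zero_of_red_ne_zero hu
  have hpush := hr.redDiv_divOf_of_unit hmem hinv hne
  rw [fi_divOf_eq S.hF (x - algebraMap K F t), map_sub] at hpush
  refine eq_poleDiv_of_sub_eq_divOf S.hFk (redDiv_nonneg r (poleDiv_nonneg S.hF _))
    (redDiv_nonneg r (poleDiv_nonneg S.hF _)) _ hpush ?_
  rw [hr.degree_redDiv, Fermat.Agent.RRHur.fibreDeg_poleDiv_sub_const, red_sub_const hx ht,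
    Fermat.Agent.RRHur.fibreDeg_poleDiv_sub_const, hdeg]

/-- `r_* (x)_∞ = (x̄)_∞`. -/
theorem IsReduction.redDiv_poleDiv : redDiv r (poleDiv S.hF x) = poleDiv S.hFk (S.red x) := by
  have h := (hr.redDiv_poleDiv_zeroDiv hx htr hdeg (zero_mem S.A)).1
  rw [Fermat.Agent.RRHur.fibreDeg_poleDiv_sub_const, red_sub_const hx (zero_mem S.A),
    Fermat.Agent.RRHur.fibreDeg_poleDiv_sub_const] at h
  exact h

/-- `r_* (x - t)_0 = (x̄ - t̄)_0` for `t ∈ A`. -/
theorem IsReduction.redDiv_zeroDiv {t : K} (ht : t ∈ S.A) :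
    redDiv r (poleDiv S.hF (x - algebraMap K F t)⁻¹)
      = poleDiv S.hFk (S.red x - algebraMap k Fk (S.res ⟨t, ht⟩))⁻¹ := by
  rw [← red_sub_const hx ht]
  exact (hr.redDiv_poleDiv_zeroDiv hx htr hdeg ht).2

/-- a pole of `x` reduces to a pole of `x̄`. -/
theorem IsReduction.ord_red_neg {P : Place K F} (hP : P.ord x < 0) : (r P).ord (S.red x) < 0 := by
  have h1 := hr.redDiv_poleDiv hx htr hdeg
  have h2 : poleDiv S.hF x P ≤ redDiv r (poleDiv S.hF x) (r P) := by
    rw [redDiv_apply]
    exact Fermat.Agent.S18Key.le_mapDomain r _ (r P)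
      (fun P' _ => by
        have := Finsupp.le_def.mp (poleDiv_nonneg S.hF x) P'
        simpa using this) P rfl
  rw [h1, poleDiv_apply, poleDiv_apply, max_eq_left (by omega)] at h2
  by_contra hcon
  rw [max_eq_right (by omega)] at h2
  omega

/-- a zero of `x - t`, `t ∈ A`, reduces to a zero of `x̄ - t̄`. -/
theorem IsReduction.ord_red_sub_pos {t : K} (ht : t ∈ S.A) {P : Place K F}
    (hP : 0 < P.ord (x - algebraMap K F t)) :
    0 < (r P).ord (S.red x - algebraMap k Fk (S.res ⟨t, ht⟩)) := by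
  have h1 := hr.redDiv_zeroDiv hx htr hdeg ht
  have h2 : poleDiv S.hF (x - algebraMap K F t)⁻¹ P
      ≤ redDiv r (poleDiv S.hF (x - algebraMap K F t)⁻¹) (r P) := by
    rw [redDiv_apply]
    exact Fermat.Agent.S18Key.le_mapDomain r _ (r P)
      (fun P' _ => by
        have := Finsupp.le_def.mp (poleDiv_nonneg S.hF (x - algebraMap K F t)⁻¹) P'
        simpa using this) P rfl
  rw [h1, poleDiv_apply, poleDiv_apply, Place.ord_inv, Place.ord_inv, neg_neg, neg_neg,
    max_eq_left (by omega)] at h2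
  by_contra hcon
  rw [max_eq_right (by omega)] at h2
  omega

/-- no pole of `x` in the residue disc of a zero of `x - t`, `t ∈ A`. -/
theorem IsReduction.ord_nonneg_of_disc {t : K} (ht : t ∈ S.A) {P : Place K F}
    (hP : 0 < P.ord (x - algebraMap K F t)) {P' : Place K F} (hP' : r P' = r P) :
    0 ≤ P'.ord x := by
  by_contra hcon
  have h1 := hr.ord_red_neg hx htr hdeg (not_le.mp hcon)
  have h2 := hr.ord_red_sub_pos hx htr hdeg ht hP
  rw [hP'] at h1
  have h3 : 0 ≤ (r P).ord (S.red x) := by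
    have h4 := mem_of_ord_nonneg' (r P) h2.le
    have h5 := add_mem h4 ((r P).algebraMap_mem' (S.res ⟨t, ht⟩))
    rw [sub_add_cancel] at h5
    exact Fermat.Agent.S24Res.ord_nonneg_of_mem (r P) h5
  omega

/-- **`r` is injective on the fibre of `x` over `t`** if the fibre of `x̄` over `t̄` is
unramified. -/
theorem IsReduction.eq_of_unramified {t : K} (ht : t ∈ S.A)
    (hunr : ∀ Q : Place k Fk, Q.ord (S.red x - algebraMap k Fk (S.res ⟨t, ht⟩)) ≤ 1)
    {P P' : Place K F} (hP : 0 < P.ord (x - algebraMap K F t))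
    (hP' : 0 < P'.ord (x - algebraMap K F t)) (h : r P = r P') : P = P' := by
  by_contra hne
  have h1 := hr.redDiv_zeroDiv hx htr hdeg ht
  have h2 : poleDiv S.hF (x - algebraMap K F t)⁻¹ P + poleDiv S.hF (x - algebraMap K F t)⁻¹ P'
      ≤ redDiv r (poleDiv S.hF (x - algebraMap K F t)⁻¹) (r P) := by
    rw [redDiv_apply]
    exact Fermat.Agent.S18Key.add_le_mapDomain r _ (r P)
      (fun P'' _ => by
        have := Finsupp.le_def.mp (poleDiv_nonneg S.hF (x - algebraMap K F t)⁻¹) P''
        simpa using this) P P' hne rfl h.symm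
  rw [h1, poleDiv_apply, poleDiv_apply, poleDiv_apply, Place.ord_inv, Place.ord_inv,
    Place.ord_inv, neg_neg, neg_neg, neg_neg, max_eq_left (by omega), max_eq_left (by omega)] at h2
  have h3 := hunr (r P)
  have h4 : max ((r P).ord (S.red x - algebraMap k Fk (S.res ⟨t, ht⟩))) 0 ≤ 1 :=
    max_le h3 (by norm_num)
  omega

end Fibre

end Fermat.Agent.FF
end
end MergeWrap_Lib_FF_RedValue
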