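import Mathlib
import Fermat.Agent.Lib.FF.ConstRank
import Fermat.Agent.Lib.FF.KMRank
import Fermat.Agent.Lib.FF.KMRingDefs
import Fermat.Agent.Lib.FF.KMSteps
import Fermat.Agent.Lib.FF.PlacesQbar
import Fermat.Agent.Lib.FF.FormalDefs
import Fermat.Agent.Lib.FF.KMIso
import Fermat.Agent.MU.Lib.FlatMod.OrderOmega

section MergeWrap_Lib_FF_KMRing -- from Lib/FF/KMRing.lean

/-!
# FF / S19, route R-G, seat K: Khuri-Makdisi addition over a ring (helper2)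

Main theorem `exists_sum_matrix`: let `d : KMData R ..` be the coordinate data of a
Khuri-Makdisi addition step over a commutative ring `R` (`E₂` with a left inverse).  If the
pointwise rank statements `KMGood` hold

* at a jointly injective family of field-valued points of `R`, and
* at (a field-valued point over) every maximal ideal of `R`,

then there is a matrix `Γ₃` over `R`, in echelon form with respect to the pivot rows `I₀`,
whose column space at EVERY field-valued point `f` is the pointwise Khuri-Makdisi result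
`(d.map f).W₃`.  By uniqueness of the echelon form (`eq_map_of_echelon`) the entries of `Γ₃`
are the coordinates of the sum.
-/

set_option autoImplicit false
set_option linter.unusedSectionVars false

open Matrix

namespace Fermat.Agent.KMRing

universe v w

variable {R : Type*} [CommRing R] {n₁ n₂ n₄ rx ry e₁ e₂ : ℕ}

namespace KMData

variable (d : KMData R n₁ n₂ n₄ rx ry e₁ e₂)

section BaseChange

variable {S : Type*} [CommRing S] (g : R →+* S)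
  {Ψ₂ : Matrix ((Fin rx × Fin ry) × Fin e₂) (((Fin rx × Fin ry) × (Fin rx × Fin ry)) × Fin n₄) R}
  {Ψ₃ : Matrix (((Fin rx × Fin ry) × Fin e₂) × (Fin rx × Fin ry)) (Fin n₂) R}
  {Ψ₄ : Matrix (Fin n₁) (Fin e₁ × Fin n₂) R}

theorem range_map_Ξ₂ (hΨ₂ : d.Φ₂ * Ψ₂ * d.Φ₂ = d.Φ₂) :
    LinearMap.range ((1 - Ψ₂ * d.Φ₂).map g).mulVecLin =
      LinearMap.ker (d.map g).Φ₂.mulVecLin := by
  rw [map_one_sub_mul, range_one_sub_mul (map_mul_mul g hΨ₂), map_Φ₂]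

theorem range_map_Φ₃ (hΨ₂ : d.Φ₂ * Ψ₂ * d.Φ₂ = d.Φ₂) :
    LinearMap.range ((d.Φ₃ (1 - Ψ₂ * d.Φ₂)).map g).mulVecLin = (d.map g).Y := by
  rw [map_Φ₃]
  exact (d.map g).range_Φ₃ _ (d.range_map_Ξ₂ g hΨ₂)

theorem ker_map_Q₃ (hΨ₂ : d.Φ₂ * Ψ₂ * d.Φ₂ = d.Φ₂)
    (hΨ₃ : d.Φ₃ (1 - Ψ₂ * d.Φ₂) * Ψ₃ * d.Φ₃ (1 - Ψ₂ * d.Φ₂) = d.Φ₃ (1 - Ψ₂ * d.Φ₂)) :
    LinearMap.ker ((1 - d.Φ₃ (1 - Ψ₂ * d.Φ₂) * Ψ₃).map g).mulVecLin = (d.map g).Y := by
  rw [map_one_sub_mul, ker_one_sub_mul (map_mul_mul g hΨ₃)]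
  exact d.range_map_Φ₃ g hΨ₂

theorem ker_map_Φ₄ (hΨ₂ : d.Φ₂ * Ψ₂ * d.Φ₂ = d.Φ₂)
    (hΨ₃ : d.Φ₃ (1 - Ψ₂ * d.Φ₂) * Ψ₃ * d.Φ₃ (1 - Ψ₂ * d.Φ₂) = d.Φ₃ (1 - Ψ₂ * d.Φ₂)) :
    LinearMap.ker ((d.Φ₄ (1 - d.Φ₃ (1 - Ψ₂ * d.Φ₂) * Ψ₃)).map g).mulVecLin = (d.map g).W₃ := by
  rw [map_Φ₄]
  exact (d.map g).ker_Φ₄ _ (d.ker_map_Q₃ g hΨ₂ hΨ₃)

theorem range_map_Ξ₄ (hΨ₂ : d.Φ₂ * Ψ₂ * d.Φ₂ = d.Φ₂)
    (hΨ₃ : d.Φ₃ (1 - Ψ₂ * d.Φ₂) * Ψ₃ * d.Φ₃ (1 - Ψ₂ * d.Φ₂) = d.Φ₃ (1 - Ψ₂ * d.Φ₂))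
    (hΨ₄ : d.Φ₄ (1 - d.Φ₃ (1 - Ψ₂ * d.Φ₂) * Ψ₃) * Ψ₄ * d.Φ₄ (1 - d.Φ₃ (1 - Ψ₂ * d.Φ₂) * Ψ₃) =
      d.Φ₄ (1 - d.Φ₃ (1 - Ψ₂ * d.Φ₂) * Ψ₃)) :
    LinearMap.range ((1 - Ψ₄ * d.Φ₄ (1 - d.Φ₃ (1 - Ψ₂ * d.Φ₂) * Ψ₃)).map g).mulVecLin =
      (d.map g).W₃ := by
  rw [map_one_sub_mul, range_one_sub_mul (map_mul_mul g hΨ₄)]
  exact d.ker_map_Φ₄ g hΨ₂ hΨ₃

end BaseChange

end KMData

section Field

variable {K : Type*} [Field K] (d : KMData K n₁ n₂ n₄ rx ry e₁ e₂)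

theorem rank_add_finrank_ker {ι κ : Type*} [Fintype ι] [Fintype κ] (Φ : Matrix ι κ K) :
    Φ.rank + Module.finrank K (LinearMap.ker Φ.mulVecLin) = Fintype.card κ := by
  have h1 := LinearMap.finrank_range_add_finrank_ker Φ.mulVecLin
  rw [Module.finrank_fintype_fun_eq_card] at h1
  exact h1

theorem KMData.rank_Φ₂ (hL : ∃ L : Matrix (Fin e₂) (Fin n₂) K, L * d.E₂ = 1) :
    d.Φ₂.rank + Module.finrank K d.cross = rx * ry * e₂ := by
  have h1 := rank_add_finrank_ker d.Φ₂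
  have h2 : Module.finrank K (LinearMap.ker d.Φ₂.mulVecLin) = Module.finrank K d.cross := by
    rw [← d.map_ker_Φ₂]
    exact (Submodule.equivMapOfInjective d.toZₗ (d.toZₗ_injective hL) _).finrank_eq
  rw [h2] at h1
  rw [h1]
  simp [Fintype.card_prod]

end Field

section Main

variable (d : KMData R n₁ n₂ n₄ rx ry e₁ e₂)

/-- the rank of `Φ₂` at a good point. -/
theorem rank_map_Φ₂ {L : Type*} [Field L] (g : R →+* L)
    (hE₂ : ∃ L : Matrix (Fin e₂) (Fin n₂) R, L * d.E₂ = 1) {ρ r₃ : ℕ} {I₀ : Fin r₃ → Fin n₁}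
    (hg : KMGood (d.map g) ρ I₀) : (d.Φ₂.map g).rank = rx * ry * e₂ - 1 := by
  have h := (d.map g).rank_Φ₂ (d.map_leftInv g hE₂)
  rw [hg.finrank_cross] at h
  rw [KMData.map_Φ₂]
  omega

/-- **Khuri-Makdisi addition over a ring.** -/
theorem exists_sum_matrix
    (hE₂ : ∃ L : Matrix (Fin e₂) (Fin n₂) R, L * d.E₂ = 1)
    (ρ : ℕ) {r₃ : ℕ} (I₀ : Fin r₃ → Fin n₁)
    {T : Type*} {K : T → Type*} [∀ t, Field (K t)] (φ : ∀ t, R →+* K t)
    (hinj : ∀ x : R, (∀ t, φ t x = 0) → x = 0)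
    (ha : ∀ t, KMGood (d.map (φ t)) ρ I₀)
    (hb : ∀ M : Ideal R, M.IsMaximal → ∃ (L : Type v) (_ : Field L) (g : R →+* L),
      M ≤ RingHom.ker g ∧ KMGood (d.map g) ρ I₀) :
    ∃ Γ₃ : Matrix (Fin n₁) (Fin r₃) R, Γ₃.submatrix I₀ id = 1 ∧
      ∀ {K' : Type w} [Field K'] (f : R →+* K'),
        LinearMap.range (Γ₃.map f).mulVecLin = (d.map f).W₃ := by
  classical
  -- step (S2)
  obtain ⟨Ψ₂, hΨ₂⟩ := exists_genInv_of_pointwise d.Φ₂ (rx * ry * e₂ - 1) φ hinj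
    (fun t => (rank_map_Φ₂ d (φ t) hE₂ (ha t)).le)
    (fun M hM => by
      obtain ⟨L, hL, g, hle, hg⟩ := hb M hM
      exact ⟨L, hL, g, hle, (rank_map_Φ₂ d g hE₂ hg).ge⟩)
  -- step (S3)
  have key3 : ∀ {L : Type v} [Field L] (g : R →+* L), KMGood (d.map g) ρ I₀ →
      ((d.Φ₃ (1 - Ψ₂ * d.Φ₂)).map g).rank = ρ := by
    intro L _ g hg
    rw [Matrix.rank, d.range_map_Φ₃ g hΨ₂]
    exact hg.finrank_Y
  have key3' : ∀ t, ((d.Φ₃ (1 - Ψ₂ * d.Φ₂)).map (φ t)).rank = ρ := by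
    intro t
    rw [Matrix.rank, d.range_map_Φ₃ (φ t) hΨ₂]
    exact (ha t).finrank_Y
  obtain ⟨Ψ₃, hΨ₃⟩ := exists_genInv_of_pointwise (d.Φ₃ (1 - Ψ₂ * d.Φ₂)) ρ φ hinj
    (fun t => (key3' t).le)
    (fun M hM => by
      obtain ⟨L, hL, g, hle, hg⟩ := hb M hM
      exact ⟨L, hL, g, hle, (key3 g hg).ge⟩)
  -- step (S4)
  have key4 : ∀ {L : Type v} [Field L] (g : R →+* L), KMGood (d.map g) ρ I₀ →
      ((d.Φ₄ (1 - d.Φ₃ (1 - Ψ₂ * d.Φ₂) * Ψ₃)).map g).rank = n₁ - r₃ := by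
    intro L _ g hg
    have h := rank_add_finrank_ker ((d.Φ₄ (1 - d.Φ₃ (1 - Ψ₂ * d.Φ₂) * Ψ₃)).map g)
    rw [d.ker_map_Φ₄ g hΨ₂ hΨ₃, hg.finrank_W₃, Fintype.card_fin] at h
    omega
  have key4' : ∀ t, ((d.Φ₄ (1 - d.Φ₃ (1 - Ψ₂ * d.Φ₂) * Ψ₃)).map (φ t)).rank = n₁ - r₃ := by
    intro t
    have h := rank_add_finrank_ker ((d.Φ₄ (1 - d.Φ₃ (1 - Ψ₂ * d.Φ₂) * Ψ₃)).map (φ t))
    rw [d.ker_map_Φ₄ (φ t) hΨ₂ hΨ₃, (ha t).finrank_W₃, Fintype.card_fin] at h
    omega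
  obtain ⟨Ψ₄, hΨ₄⟩ := exists_genInv_of_pointwise (d.Φ₄ (1 - d.Φ₃ (1 - Ψ₂ * d.Φ₂) * Ψ₃))
    (n₁ - r₃) φ hinj (fun t => (key4' t).le)
    (fun M hM => by
      obtain ⟨L, hL, g, hle, hg⟩ := hb M hM
      exact ⟨L, hL, g, hle, (key4 g hg).ge⟩)
  -- the idempotent with range `W₃`
  set Ξ₄ : Matrix (Fin n₁) (Fin n₁) R :=
    1 - Ψ₄ * d.Φ₄ (1 - d.Φ₃ (1 - Ψ₂ * d.Φ₂) * Ψ₃) with hΞ₄
  have h1 : FF.MinorsVanish Ξ₄ r₃ := by
    intro I J
    apply hinj
    intro t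
    rw [map_det_submatrix]
    apply det_submatrix_eq_zero_of_rank_lt
    rw [Matrix.rank, hΞ₄, d.range_map_Ξ₄ (φ t) hΨ₂ hΨ₃ hΨ₄, (ha t).finrank_W₃]
    exact Nat.lt_succ_self _
  have h2 : FF.MinorsUnitRows Ξ₄ I₀ := by
    by_contra hne
    obtain ⟨M, hMmax, hM⟩ := Ideal.exists_le_maximal _ hne
    obtain ⟨L, _, g, hle, hg⟩ := hb M hMmax
    have hrange : LinearMap.range (Ξ₄.map g).mulVecLin = (d.map g).W₃ := by
      rw [hΞ₄]
      exact d.range_map_Ξ₄ g hΨ₂ hΨ₃ hΨ₄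
    -- the projection to the pivot coordinates
    set π : (Fin n₁ → L) →ₗ[L] (Fin r₃ → L) := LinearMap.funLeft L L I₀ with hπ
    have hB : LinearMap.range ((Ξ₄.map g).submatrix I₀ id).mulVecLin =
        ((d.map g).W₃).map π := by
      rw [← hrange, ← LinearMap.range_comp]
      congr 1
    have hinjπ : Function.Injective (π.domRestrict (d.map g).W₃) := by
      rw [← LinearMap.ker_eq_bot, LinearMap.ker_eq_bot']
      rintro ⟨s, hs⟩ h0
      have h0' : π s = 0 := h0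
      have := hg.chart s hs (fun i => congrFun h0' i)
      exact Subtype.ext this
    have hrank : r₃ ≤ ((Ξ₄.map g).submatrix I₀ id).rank := by
      rw [Matrix.rank, hB, ← LinearMap.range_domRestrict,
        LinearMap.finrank_range_of_inj hinjπ, hg.finrank_W₃]
    obtain ⟨J, hJ⟩ := exists_cols_det_ne_zero _ hrank
    apply hJ
    have hmem : (Ξ₄.submatrix I₀ J).det ∈ M := hM (Ideal.subset_span ⟨J, rfl⟩)
    have := hle hmem
    rw [RingHom.mem_ker, map_det_submatrix] at this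
    exact this
  obtain ⟨Γ₃, hΓ1, hΓ2, Θ, hΓ3⟩ := FF.exists_echelon Ξ₄ h1 h2
  refine ⟨Γ₃, hΓ1, fun {K'} _ f => ?_⟩
  have hrange : LinearMap.range (Ξ₄.map f).mulVecLin = (d.map f).W₃ := by
    rw [hΞ₄]
    exact d.range_map_Ξ₄ f hΨ₂ hΨ₃ hΨ₄
  rw [← hrange]
  refine FF.range_eq_of_echelon (I₀ := I₀) ?_ ⟨Θ.map f, ?_⟩
  · have := congrArg (fun A : Matrix (Fin n₁) (Fin n₁) R => A.map f) hΓ2
    simp only [Matrix.map_mul] at this
    exact this
  · rw [hΓ3, Matrix.map_mul]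

/-- the echelon matrix of the pointwise result is the value of `Γ₃`. -/
theorem eq_map_of_echelon {K' : Type*} [Field K'] (f : R →+* K') {r₃ : ℕ} {I₀ : Fin r₃ → Fin n₁}
    {Γ₃ : Matrix (Fin n₁) (Fin r₃) R} (hΓ₃ : Γ₃.submatrix I₀ id = 1)
    (hrange : LinearMap.range (Γ₃.map f).mulVecLin = (d.map f).W₃)
    {Γ' : Matrix (Fin n₁) (Fin r₃) K'} (hΓ' : Γ'.submatrix I₀ id = 1)
    (hΓ'W : LinearMap.range Γ'.mulVecLin ≤ (d.map f).W₃) : Γ' = Γ₃.map f := by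
  refine FF.echelon_unique_of_range_le ?_ hΓ' (hrange ▸ hΓ'W)
  rw [show (Γ₃.map f).submatrix I₀ id = (Γ₃.submatrix I₀ id).map f from rfl, hΓ₃]
  ext i j
  simp [Matrix.map_apply, Matrix.one_apply, apply_ite f]

end Main

end Fermat.Agent.KMRing
end MergeWrap_Lib_FF_KMRing

section MergeWrap_Lib_FF_PtsMax -- from Lib/FF/PtsMax.lean

/-!
# FF / S19, route R-G, seat K': the maximal ideals of a ring of functions (helper2)

Let `B` be a commutative ring, `Kb` a field with `[Algebra B Kb]`, `X` a finite type and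
`R : Subalgebra B (X → Kb)` a `B`-algebra of functions all of whose values come from `B`
(`hval`).  Then

* `PtsMax.eval_eq_zero` : the evaluations `ev_x : R → Kb` are jointly injective;
* `PtsMax.exists_ker_eval_le` : every prime ideal of `R` contains the kernel of some `ev_x`;
* `PtsMax.exists_max_of_isMaximal` : every maximal ideal `M` of `R` lies over a point `x` and a
  maximal ideal `𝔫` of `B`: for `r ∈ M` the value `r x` is the image of an element of `𝔫`;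
* `PtsMax.redAt`, `PtsMax.exists_redAt_of_isMaximal` : if every maximal ideal of `B` is induced by
  a valuation subring `A ⊇ B` of `Kb` in a given class, then every maximal ideal of `R` is
  contained in the kernel of a reduction `redAt A x : R →+* ResidueField A`,
  `r ↦ (r x mod 𝔪_A)`.
-/

set_option autoImplicit false
set_option linter.unusedSectionVars false

namespace Fermat.Agent.PtsMax

variable {B : Type*} [CommRing B] {Kb : Type*} [Field Kb] [Algebra B Kb] {X : Type*}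
  (R : Subalgebra B (X → Kb))

/-- evaluation at a point. -/
def evalHom (x : X) : R →+* Kb := (Pi.evalRingHom (fun _ : X => Kb) x).comp R.val.toRingHom

@[simp] theorem evalHom_apply (x : X) (r : R) : evalHom R x r = (r : X → Kb) x := rfl

/-- the evaluations are jointly injective. -/
theorem eval_eq_zero (r : R) (h : ∀ x, evalHom R x r = 0) : r = 0 := by
  apply Subtype.ext
  funext x
  have := h x
  rw [evalHom_apply] at this
  exact this

/-- every prime ideal of `R` contains the kernel of an evaluation. -/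
theorem exists_ker_eval_le [Finite X] (P : Ideal R) [hP : P.IsPrime] :
    ∃ x : X, RingHom.ker (evalHom R x) ≤ P := by
  classical
  have := Fintype.ofFinite X
  have h : (Finset.univ : Finset X).inf (fun x => RingHom.ker (evalHom R x)) ≤ P := by
    intro r hr
    have hr' : ∀ x, evalHom R x r = 0 := by
      intro x
      have := (Finset.inf_le (f := fun x => RingHom.ker (evalHom R x)) (Finset.mem_univ x)) hr
      exact this
    rw [eval_eq_zero R r hr']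
    exact P.zero_mem
  obtain ⟨x, -, hx⟩ := (Ideal.IsPrime.inf_le' hP).mp h
  exact ⟨x, hx⟩

variable (hval : ∀ r ∈ R, ∀ x, (r : X → Kb) x ∈ (algebraMap B Kb).range)

include hval in
/-- **maximal ideals of `R` lie over points and maximal ideals of `B`.** -/
theorem exists_max_of_isMaximal [Finite X] (M : Ideal R) [hM : M.IsMaximal] :
    ∃ (x : X) (𝔫 : Ideal B), 𝔫.IsMaximal ∧ RingHom.ker (evalHom R x) ≤ M ∧
      𝔫 = Ideal.comap (algebraMap B R) M ∧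
      ∀ r : R, r ∈ M → ∃ b ∈ 𝔫, algebraMap B Kb b = (r : X → Kb) x := by
  obtain ⟨x, hx⟩ := exists_ker_eval_le R M
  -- every element of `R` is congruent to a constant modulo `ker ev_x`
  have hconst : ∀ r : R, ∃ b : B, r - algebraMap B R b ∈ M := by
    intro r
    obtain ⟨b, hb⟩ := hval r.1 r.2 x
    refine ⟨b, hx ?_⟩
    rw [RingHom.mem_ker, map_sub, evalHom_apply, evalHom_apply, ← hb]
    have : ((algebraMap B R b : R) : X → Kb) x = algebraMap B Kb b := by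
      rw [Subalgebra.coe_algebraMap]
      rfl
    rw [this, sub_self]
  set f : B →+* R ⧸ M := (Ideal.Quotient.mk M).comp (algebraMap B R) with hf
  have hsurj : Function.Surjective f := by
    intro q
    obtain ⟨r, rfl⟩ := Ideal.Quotient.mk_surjective q
    obtain ⟨b, hb⟩ := hconst r
    refine ⟨b, ?_⟩
    rw [hf, RingHom.comp_apply]
    exact ((Ideal.Quotient.mk_eq_mk_iff_sub_mem _ _).mpr hb).symm
  let _ : Field (R ⧸ M) := Ideal.Quotient.field M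
  have hmax : (Ideal.comap f ⊥).IsMaximal :=
    Ideal.comap_isMaximal_of_surjective f hsurj
  have hcomap : Ideal.comap f ⊥ = Ideal.comap (algebraMap B R) M := by
    rw [hf, ← Ideal.comap_comap, ← RingHom.ker_eq_comap_bot, Ideal.mk_ker]
  rw [hcomap] at hmax
  refine ⟨x, _, hmax, hx, rfl, fun r hr => ?_⟩
  obtain ⟨b, hb⟩ := hval r.1 r.2 x
  refine ⟨b, ?_, hb⟩
  rw [Ideal.mem_comap]
  have h1 : r - algebraMap B R b ∈ M := by
    apply hx
    rw [RingHom.mem_ker, map_sub, evalHom_apply, evalHom_apply, ← hb]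
    have : ((algebraMap B R b : R) : X → Kb) x = algebraMap B Kb b := by
      rw [Subalgebra.coe_algebraMap]
      rfl
    rw [this, sub_self]
  have h2 : algebraMap B R b = r - (r - algebraMap B R b) := by ring
  rw [h2]
  exact M.sub_mem hr h1

/-- the values of the elements of `Algebra.adjoin B s` come from `B` if those of `s` do. -/
theorem hval_adjoin (s : Set (X → Kb))
    (hs : ∀ f ∈ s, ∀ x, f x ∈ (algebraMap B Kb).range) :
    ∀ r ∈ Algebra.adjoin B s, ∀ x, (r : X → Kb) x ∈ (algebraMap B Kb).range := by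
  intro r hr x
  induction hr using Algebra.adjoin_induction with
  | mem f hf => exact hs f hf x
  | algebraMap b => exact ⟨b, rfl⟩
  | add f g _ _ hf hg => exact Subring.add_mem _ hf hg
  | mul f g _ _ hf hg => exact Subring.mul_mem _ hf hg

/-! ### reduction at a valuation subring -/

section Red

variable (A : ValuationSubring Kb) (hBA : ∀ b : B, algebraMap B Kb b ∈ A)

include hval hBA in
theorem eval_mem (x : X) (r : R) : (r : X → Kb) x ∈ A := by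
  obtain ⟨b, hb⟩ := hval r.1 r.2 x
  rw [← hb]
  exact hBA b

/-- evaluation at `x` with values in the valuation ring `A`. -/
def evalA (x : X) : R →+* A where
  toFun r := ⟨(r : X → Kb) x, eval_mem R hval A hBA x r⟩
  map_one' := Subtype.ext rfl
  map_mul' _ _ := Subtype.ext rfl
  map_zero' := Subtype.ext rfl
  map_add' _ _ := Subtype.ext rfl

@[simp] theorem coe_evalA (x : X) (r : R) :
    ((evalA R hval A hBA x r : A) : Kb) = (r : X → Kb) x := rfl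

/-- the reduction of `R` at the closed point `(x, A)`. -/
noncomputable def redAt (x : X) : R →+* IsLocalRing.ResidueField A :=
  (IsLocalRing.residue A).comp (evalA R hval A hBA x)

theorem redAt_apply (x : X) (r : R) :
    redAt R hval A hBA x r = IsLocalRing.residue A (evalA R hval A hBA x r) := rfl

theorem redAt_algebraMap (x : X) (b : B) :
    redAt R hval A hBA x (algebraMap B R b) =
      IsLocalRing.residue A ⟨algebraMap B Kb b, hBA b⟩ := by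
  rw [redAt_apply]
  congr 1

theorem redAt_eq_zero_iff (x : X) (r : R) :
    redAt R hval A hBA x r = 0 ↔ (r : X → Kb) x ∈ A.nonunits := by
  rw [redAt_apply, IsLocalRing.residue_eq_zero_iff, ← ValuationSubring.coe_mem_nonunits_iff]
  rfl

end Red

include hval in
/-- **closed points**: if every maximal ideal of `B` is induced by a valuation subring of `Kb`
containing `B` and satisfying `P`, then every maximal ideal of `R` is contained in the kernel of a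
reduction `redAt A x` with `P A`. -/
theorem exists_redAt_of_isMaximal [Finite X] (P : ValuationSubring Kb → Prop)
    (hPB : ∀ A, P A → ∀ b : B, algebraMap B Kb b ∈ A)
    (hPL : ∀ 𝔫 : Ideal B, 𝔫.IsMaximal →
      ∃ A : ValuationSubring Kb, P A ∧ ∀ b ∈ 𝔫, algebraMap B Kb b ∈ A.nonunits)
    (M : Ideal R) [hM : M.IsMaximal] :
    ∃ (x : X) (A : ValuationSubring Kb) (hA : P A),
      M ≤ RingHom.ker (redAt R hval A (hPB A hA) x) := by
  obtain ⟨x, 𝔫, h𝔫, -, -, hr⟩ := exists_max_of_isMaximal R hval M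
  obtain ⟨A, hA, hA𝔫⟩ := hPL 𝔫 h𝔫
  refine ⟨x, A, hA, fun r hrM => ?_⟩
  rw [RingHom.mem_ker, redAt_eq_zero_iff]
  obtain ⟨b, hb, hbr⟩ := hr r hrM
  rw [← hbr]
  exact hA𝔫 b hb

end Fermat.Agent.PtsMax
end MergeWrap_Lib_FF_PtsMax

section MergeWrap_Lib_FF_PtsMaxQ -- from Lib/FF/PtsMaxQ.lean

/-!
# FF / S19, route R-G, seat K': closed points of the ring of coordinate functions (helper2)

`exists_point_place_of_maximal` : every maximal ideal of the `Bint`-algebra of functions on a finite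
set `Y` generated by functions with integral values lies under a closed point `(y, A)`, `A` a
valuation subring of `ℚ̄` over `p`.
-/

set_option autoImplicit false

open GaloisRep

namespace Fermat.Agent.FF

local notation "Kb" => AlgebraicClosure ℚ
local notation "Bint" p => integralClosure (ratLocalizedAt p) Kb

variable {p : ℕ}

/-- the values of the functions in the range of `aeval gen` are integral. -/
theorem aeval_range_hval {Y : Type} {κ : Type} (gen : κ → Y → Kb)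
    (hgen : ∀ k y, IsIntegral (ratLocalizedAt p) (gen k y)) :
    ∀ r ∈ (MvPolynomial.aeval gen : MvPolynomial κ (Bint p) →ₐ[Bint p] (Y → Kb)).range,
      ∀ y, (r : Y → Kb) y ∈ (algebraMap (Bint p) Kb).range := by
  rw [← Algebra.adjoin_range_eq_range_aeval]
  apply PtsMax.hval_adjoin
  rintro _ ⟨k, rfl⟩ y
  exact ⟨⟨gen k y, hgen k y⟩, rfl⟩

/-- **closed points of the coordinate ring** (seat K'). -/
theorem exists_point_place_of_maximal [Fact p.Prime] {Y : Type} [Finite Y] {κ : Type}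
    (gen : κ → Y → Kb) (hgen : ∀ k y, IsIntegral (ratLocalizedAt p) (gen k y))
    (M : Ideal ↥(MvPolynomial.aeval gen : MvPolynomial κ (Bint p) →ₐ[Bint p] (Y → Kb)).range)
    (hM : M.IsMaximal) :
    ∃ (y : Y) (A : ValuationSubring Kb), A.LiesOverPrime p ∧
      ∀ f ∈ M, (f : Y → Kb) y ∈ A.nonunits := by
  obtain ⟨y, 𝔫, h𝔫, -, -, hr⟩ :=
    PtsMax.exists_max_of_isMaximal _ (aeval_range_hval gen hgen) M
  obtain ⟨A, hA, hA𝔫⟩ := pl_exists_of_isMaximal 𝔫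
  refine ⟨y, A, hA, fun f hf => ?_⟩
  obtain ⟨b, hb, hbf⟩ := hr f hf
  rw [← hbf]
  exact (hA𝔫 b).mp hb

/-- the reduction `R → k(A)` at a closed point, for the coordinate ring. -/
noncomputable def redPoint [Fact p.Prime] {Y : Type} {κ : Type}
    (gen : κ → Y → Kb) (hgen : ∀ k y, IsIntegral (ratLocalizedAt p) (gen k y))
    (A : ValuationSubring Kb) (hA : A.LiesOverPrime p) (y : Y) :
    ↥(MvPolynomial.aeval gen : MvPolynomial κ (Bint p) →ₐ[Bint p] (Y → Kb)).range →+*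
      IsLocalRing.ResidueField A :=
  PtsMax.redAt _ (aeval_range_hval gen hgen) A
    (fun b => mem_of_isIntegral_of_liesOverPrime A hA b.2) y

theorem redPoint_eq_zero_iff [Fact p.Prime] {Y : Type} {κ : Type}
    (gen : κ → Y → Kb) (hgen : ∀ k y, IsIntegral (ratLocalizedAt p) (gen k y))
    (A : ValuationSubring Kb) (hA : A.LiesOverPrime p) (y : Y)
    (f : ↥(MvPolynomial.aeval gen : MvPolynomial κ (Bint p) →ₐ[Bint p] (Y → Kb)).range) :
    redPoint gen hgen A hA y f = 0 ↔ (f : Y → Kb) y ∈ A.nonunits :=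
  PtsMax.redAt_eq_zero_iff _ _ A _ y f

theorem redPoint_apply [Fact p.Prime] {Y : Type} {κ : Type}
    (gen : κ → Y → Kb) (hgen : ∀ k y, IsIntegral (ratLocalizedAt p) (gen k y))
    (A : ValuationSubring Kb) (hA : A.LiesOverPrime p) (y : Y)
    (f : ↥(MvPolynomial.aeval gen : MvPolynomial κ (Bint p) →ₐ[Bint p] (Y → Kb)).range)
    (hf : (f : Y → Kb) y ∈ A) :
    redPoint gen hgen A hA y f = IsLocalRing.residue A ⟨(f : Y → Kb) y, hf⟩ := rfl

/-- every maximal ideal is contained in the kernel of a reduction at a closed point. -/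
theorem exists_redPoint_of_maximal [Fact p.Prime] {Y : Type} [Finite Y] {κ : Type}
    (gen : κ → Y → Kb) (hgen : ∀ k y, IsIntegral (ratLocalizedAt p) (gen k y))
    (M : Ideal ↥(MvPolynomial.aeval gen : MvPolynomial κ (Bint p) →ₐ[Bint p] (Y → Kb)).range)
    (hM : M.IsMaximal) :
    ∃ (y : Y) (A : ValuationSubring Kb) (hA : A.LiesOverPrime p),
      M ≤ RingHom.ker (redPoint gen hgen A hA y) := by
  obtain ⟨y, A, hA, h⟩ := exists_point_place_of_maximal gen hgen M hM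
  refine ⟨y, A, hA, fun f hf => ?_⟩
  rw [RingHom.mem_ker, redPoint_eq_zero_iff]
  exact h f hf

end Fermat.Agent.FF
end MergeWrap_Lib_FF_PtsMaxQ

section MergeWrap_Lib_FF_Formal -- from Lib/FF/Formal.lean

set_option autoImplicit false

noncomputable section

namespace Fermat.Agent.FF

open GaloisRep Fermat.Agent.KMRing Fermat.Agent.FlatMod
open scoped Pointwise

local notation "Kb" => AlgebraicClosure ℚ
local notation "GK" => (AlgebraicClosure ℚ ≃ₐ[ℚ] AlgebraicClosure ℚ)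
local notation "Bint" p => integralClosure (ratLocalizedAt p) Kb

/-- extensionality for `KMData`. -/
theorem kmData_ext {R : Type*} {n₁ n₂ n₄ rx ry e₁ e₂ : ℕ} {d d' : KMData R n₁ n₂ n₄ rx ry e₁ e₂}
    (h₁ : ∀ i j k, d.m₁ i j k = d'.m₁ i j k) (h₂ : ∀ i j k, d.m₂ i j k = d'.m₂ i j k)
    (h₃ : ∀ i a, d.Γx i a = d'.Γx i a) (h₄ : ∀ i a, d.Γy i a = d'.Γy i a)
    (h₅ : ∀ i a, d.E₁ i a = d'.E₁ i a) (h₆ : ∀ i a, d.E₂ i a = d'.E₂ i a) : d = d' := by
  obtain ⟨m₁, m₂, Γx, Γy, E₁, E₂⟩ := d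
  obtain ⟨m₁', m₂', Γx', Γy', E₁', E₂'⟩ := d'
  have e₁ : m₁ = m₁' := funext fun i => funext fun j => funext fun k => h₁ i j k
  have e₂ : m₂ = m₂' := funext fun i => funext fun j => funext fun k => h₂ i j k
  have e₃ : Γx = Γx' := Matrix.ext h₃
  have e₄ : Γy = Γy' := Matrix.ext h₄
  have e₅ : E₁ = E₁' := Matrix.ext h₅
  have e₆ : E₂ = E₂' := Matrix.ext h₆
  subst e₁ e₂ e₃ e₄ e₅ e₆
  rfl

section Setup

variable {p : ℕ} {W : Type} [AddCommGroup W] {act : GK → W → W}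
  {n : Type} {Fib : n → Type} {perm : ∀ i, GK → Fib i → Fib i} {n₁ n₂ n₄ r e₂ : ℕ}
  (𝒢 : KMGeom p W act Fib perm n₁ n₂ n₄ r e₂)

/-- the coordinates. -/
def kmCoord : (∀ i, Fib i) → Fin n₁ × Fin r → W → Kb := fun τ j w => 𝒢.Γ τ w j.1 j.2

/-- the generators of the ring of coordinate functions on `W × W`. -/
def kmGen : ((∀ i, Fib i) × (Fin n₁ × Fin r)) ⊕ ((∀ i, Fib i) × (Fin n₁ × Fin r)) →
    W × W → Kb :=
  fun k y => Sum.elim (fun k => kmCoord 𝒢 k.1 k.2 y.1) (fun k => kmCoord 𝒢 k.1 k.2 y.2) k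

theorem kmGen_int (k) (y : W × W) : IsIntegral (ratLocalizedAt p) (kmGen 𝒢 k y) := by
  rcases k with k | k
  · exact 𝒢.Γ_int k.1 y.1 k.2.1 k.2.2
  · exact 𝒢.Γ_int k.1 y.2 k.2.1 k.2.2

/-- the ring of coordinate functions on `W × W`. -/
abbrev kmRing : Subalgebra (Bint p) (W × W → Kb) :=
  (MvPolynomial.aeval (kmGen 𝒢) :
    MvPolynomial (((∀ i, Fib i) × (Fin n₁ × Fin r)) ⊕ ((∀ i, Fib i) × (Fin n₁ × Fin r)))
      (Bint p) →ₐ[Bint p] (W × W → Kb)).range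

/-- a generator as an element of the ring. -/
def kmGenR (k : ((∀ i, Fib i) × (Fin n₁ × Fin r)) ⊕ ((∀ i, Fib i) × (Fin n₁ × Fin r))) :
    kmRing 𝒢 :=
  ⟨kmGen 𝒢 k, ⟨MvPolynomial.X k, MvPolynomial.aeval_X _ _⟩⟩

/-- a constant as an element of the ring. -/
def kmCst (b : Kb) (hb : IsIntegral (ratLocalizedAt p) b) : kmRing 𝒢 :=
  algebraMap (Bint p) (kmRing 𝒢) ⟨b, hb⟩

theorem coe_kmCst (b : Kb) (hb : IsIntegral (ratLocalizedAt p) b) (y : W × W) :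
    ((kmCst 𝒢 b hb : kmRing 𝒢) : W × W → Kb) y = b := rfl

theorem coe_kmGenR (k) (y : W × W) : ((kmGenR 𝒢 k : kmRing 𝒢) : W × W → Kb) y = kmGen 𝒢 k y :=
  rfl

/-- the Khuri-Makdisi data over the ring of coordinate functions. -/
def kmDataR (τ : ∀ i, Fib i) : KMData (kmRing 𝒢) n₁ n₂ n₄ r r r e₂ where
  m₁ := fun i j k => kmCst 𝒢 (𝒢.m₁ i j k) (𝒢.m₁_int i j k)
  m₂ := fun i j k => kmCst 𝒢 (𝒢.m₂ i j k) (𝒢.m₂_int i j k)
  Γx := Matrix.of fun i a => kmGenR 𝒢 (Sum.inl (τ, (i, a)))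
  Γy := Matrix.of fun i a => kmGenR 𝒢 (Sum.inr (τ, (i, a)))
  E₁ := Matrix.of fun i a => kmCst 𝒢 (𝒢.Γ τ 0 i a) (𝒢.Γ_int τ 0 i a)
  E₂ := Matrix.of fun i a => kmCst 𝒢 (𝒢.X τ i a) (𝒢.X_int τ i a)

/-- at a generic point the data are the data of `KMGeom`. -/
theorem kmDataR_map_eval (τ : ∀ i, Fib i) (y : W × W) :
    (kmDataR 𝒢 τ).map (PtsMax.evalHom (kmRing 𝒢) y) =
      kmDataAt 𝒢.m₁ 𝒢.m₂ (𝒢.Γ τ) (𝒢.X τ) y.1 y.2 := by
  apply kmData_ext <;> intros <;> rfl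

/-- `E₂` has a left inverse over the ring. -/
theorem kmDataR_leftInv (τ : ∀ i, Fib i) :
    ∃ L : Matrix (Fin e₂) (Fin n₂) (kmRing 𝒢), L * (kmDataR 𝒢 τ).E₂ = 1 := by
  refine ⟨Matrix.of fun a i => kmCst 𝒢 (𝒢.Lx τ a i) (𝒢.Lx_int τ a i), ?_⟩
  ext a b y
  have h := congrFun (congrFun (𝒢.Lx_mul_X τ) a) b
  rw [Matrix.mul_apply] at h
  rw [Matrix.mul_apply]
  have hsum : ((∑ j, Matrix.of (fun a i => kmCst 𝒢 (𝒢.Lx τ a i) (𝒢.Lx_int τ a i)) a j *
      (kmDataR 𝒢 τ).E₂ j b : kmRing 𝒢) : W × W → Kb) y = ∑ j, 𝒢.Lx τ a j * 𝒢.X τ j b := by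
    rw [AddSubmonoidClass.coe_finsetSum, Finset.sum_apply]
    rfl
  rw [hsum, h]
  by_cases hab : a = b
  · subst hab
    simp
  · simp [hab]

end Setup

section Closed

variable {p : ℕ} [Fact p.Prime] {W : Type} [AddCommGroup W] {act : GK → W → W}
  {n : Type} {Fib : n → Type} {perm : ∀ i, GK → Fib i → Fib i} {n₁ n₂ n₄ r e₂ : ℕ}
  (𝒢 : KMGeom p W act Fib perm n₁ n₂ n₄ r e₂)

/-- the integral model over `A₀` of the data at `(τ', x', y')`. -/
def kmDataA₀ (τ' : ∀ i, Fib i) (x' y' : W) : KMData 𝒢.A₀ n₁ n₂ n₄ r r r e₂ where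
  m₁ := fun i j k =>
    ⟨𝒢.m₁ i j k, mem_of_isIntegral_of_liesOverPrime 𝒢.A₀ 𝒢.hA₀ (𝒢.m₁_int i j k)⟩
  m₂ := fun i j k =>
    ⟨𝒢.m₂ i j k, mem_of_isIntegral_of_liesOverPrime 𝒢.A₀ 𝒢.hA₀ (𝒢.m₂_int i j k)⟩
  Γx := Matrix.of fun i a =>
    ⟨𝒢.Γ τ' x' i a, mem_of_isIntegral_of_liesOverPrime 𝒢.A₀ 𝒢.hA₀ (𝒢.Γ_int τ' x' i a)⟩
  Γy := Matrix.of fun i a =>
    ⟨𝒢.Γ τ' y' i a, mem_of_isIntegral_of_liesOverPrime 𝒢.A₀ 𝒢.hA₀ (𝒢.Γ_int τ' y' i a)⟩
  E₁ := Matrix.of fun i a =>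
    ⟨𝒢.Γ τ' 0 i a, mem_of_isIntegral_of_liesOverPrime 𝒢.A₀ 𝒢.hA₀ (𝒢.Γ_int τ' 0 i a)⟩
  E₂ := Matrix.of fun i a =>
    ⟨𝒢.X τ' i a, mem_of_isIntegral_of_liesOverPrime 𝒢.A₀ 𝒢.hA₀ (𝒢.X_int τ' i a)⟩

theorem kmDataA₀_map_subtype (τ' : ∀ i, Fib i) (x' y' : W) :
    (kmDataA₀ 𝒢 τ' x' y').map 𝒢.A₀.subtype = kmDataAt 𝒢.m₁ 𝒢.m₂ (𝒢.Γ τ') (𝒢.X τ') x' y' := by
  apply kmData_ext <;> intros <;> rfl

omit [Fact p.Prime] in
theorem residue_eq_residueEquivSMul (σ : GK) (A₀ : ValuationSubring Kb) (a b : Kb) (ha : a ∈ A₀)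
    (hb : b ∈ σ • A₀) (h : b = σ a) :
    IsLocalRing.residue ↥(σ • A₀) ⟨b, hb⟩ =
      residueEquivSMul σ A₀ (IsLocalRing.residue A₀ ⟨a, ha⟩) := by
  subst h
  rw [residueEquivSMul_residue]

variable (hact : ∀ (σ : GK) (w w' : W), act σ (w + w') = act σ w + act σ w')
  (hact_one : ∀ w, act 1 w = w) (hact_mul : ∀ (σ τ : GK) w, act (σ * τ) w = act σ (act τ w))
  (hperm_one : ∀ i P, perm i 1 P = P)
  (hperm_mul : ∀ i (σ τ : GK) P, perm i (σ * τ) P = perm i σ (perm i τ P))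

include hact hact_one hact_mul hperm_one hperm_mul in
/-- **one-place transport**: `KMGood` at the closed point `(y, σ • A₀)`. -/
theorem kmGood_closed (τ : ∀ i, Fib i) (y : W × W) (σ : GK)
    (hA : (σ • 𝒢.A₀).LiesOverPrime p) :
    KMGood ((kmDataR 𝒢 τ).map (redPoint (kmGen 𝒢) (kmGen_int 𝒢) (σ • 𝒢.A₀) hA y))
      𝒢.ρ 𝒢.I₀ := by
  set τ' : ∀ i, Fib i := fun i => perm i σ⁻¹ (τ i) with hτ'
  have hτ : (fun i => perm i σ (τ' i)) = τ := by
    funext i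
    rw [hτ', ← hperm_mul, mul_inv_cancel, hperm_one]
  have hactσ : ∀ w, act σ (act σ⁻¹ w) = w := by
    intro w
    rw [← hact_mul, mul_inv_cancel, hact_one]
  have hact0 : ∀ ρ : GK, act ρ 0 = 0 := by
    intro ρ
    have := hact ρ 0 0
    rw [add_zero] at this
    exact left_eq_add.mp this
  have hΓ : ∀ w i a, 𝒢.Γ τ w i a = σ (𝒢.Γ τ' (act σ⁻¹ w) i a) := by
    intro w i a
    rw [← 𝒢.Γ_equiv τ' σ (act σ⁻¹ w) i a, hτ, hactσ]
  have hX : ∀ i a, 𝒢.X τ i a = σ (𝒢.X τ' i a) := by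
    intro i a
    rw [← 𝒢.X_equiv τ' σ i a, hτ]
  have hgood := 𝒢.good_cl τ' (act σ⁻¹ y.1) (act σ⁻¹ y.2)
    (kmDataA₀ 𝒢 τ' (act σ⁻¹ y.1) (act σ⁻¹ y.2)) (kmDataA₀_map_subtype 𝒢 _ _ _)
  have h2 := hgood.map_ringEquiv (residueEquivSMul σ 𝒢.A₀)
  have heq : (kmDataR 𝒢 τ).map (redPoint (kmGen 𝒢) (kmGen_int 𝒢) (σ • 𝒢.A₀) hA y) =
      ((kmDataA₀ 𝒢 τ' (act σ⁻¹ y.1) (act σ⁻¹ y.2)).map (IsLocalRing.residue 𝒢.A₀)).map
        (residueEquivSMul σ 𝒢.A₀ : IsLocalRing.ResidueField 𝒢.A₀ →+* _) := by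
    apply kmData_ext
    · intro i j k
      exact residue_eq_residueEquivSMul σ 𝒢.A₀ _ _ _ _ (𝒢.m₁_fix σ i j k).symm
    · intro i j k
      exact residue_eq_residueEquivSMul σ 𝒢.A₀ _ _ _ _ (𝒢.m₂_fix σ i j k).symm
    · intro i a
      exact residue_eq_residueEquivSMul σ 𝒢.A₀ _ _ _ _ (hΓ y.1 i a)
    · intro i a
      exact residue_eq_residueEquivSMul σ 𝒢.A₀ _ _ _ _ (hΓ y.2 i a)
    · intro i a
      have h0 := hΓ 0 i a
      rw [hact0] at h0
      exact residue_eq_residueEquivSMul σ 𝒢.A₀ _ _ _ _ h0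
    · intro i a
      exact residue_eq_residueEquivSMul σ 𝒢.A₀ _ _ _ _ (hX i a)
  rw [heq]
  exact h2

end Closed

/-- evaluation of `aeval` of functions at a point. -/
theorem aeval_pi_apply {B : Type*} [CommRing B] {Kb' : Type*} [CommRing Kb'] [Algebra B Kb']
    {Y κ : Type*} (g : κ → Y → Kb') (P : MvPolynomial κ B) (y : Y) :
    (MvPolynomial.aeval g P : Y → Kb') y = MvPolynomial.aeval (fun k => g k y) P := by
  have h := MvPolynomial.comp_aeval_apply (f := g) (Pi.evalAlgHom B (fun _ : Y => Kb') y) P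
  exact h

/-- **Formal assembly** (seat F1). -/
theorem isFlat_of_kmGeom {p : ℕ} [Fact p.Prime] {W : Type} [AddCommGroup W] [Finite W]
    (act : GK → W → W) (hact : ∀ (σ : GK) (w w' : W), act σ (w + w') = act σ w + act σ w')
    (hact_one : ∀ w, act 1 w = w) (hact_mul : ∀ (σ τ : GK) w, act (σ * τ) w = act σ (act τ w))
    {n : Type} [Finite n] {Fib : n → Type} [∀ i, Finite (Fib i)]
    (perm : ∀ i, GK → Fib i → Fib i)
    (hperm_one : ∀ i P, perm i 1 P = P)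
    (hperm_mul : ∀ i (σ τ : GK) P, perm i (σ * τ) P = perm i σ (perm i τ P))
    {J : Type} [Finite J] (s : ∀ i, J → Fib i → Kb)
    (hsint : ∀ i j P, IsIntegral (ratLocalizedAt p) (s i j P))
    (hseq : ∀ i j (σ : GK) P, s i j (perm i σ P) = σ (s i j P))
    {n₁ n₂ n₄ r e₂ : ℕ} (𝒢 : KMGeom p W act Fib perm n₁ n₂ n₄ r e₂)
    (hunit : ∀ i (P P' : Fib i), P ≠ P' → ∃ j, 𝒢.A₀.valuation (s i j P - s i j P') = 1) :
    IsFlatGaloisModule p W act := by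
  classical
  have htrans : ∀ A : ValuationSubring Kb, A.LiesOverPrime p →
      ∃ σ : GK, ∀ x : Kb, x ∈ 𝒢.A₀ → σ x ∈ A := by
    intro A hA
    obtain ⟨σ, rfl⟩ := exists_smul_eq_of_liesOverPrime 𝒢.A₀ A 𝒢.hA₀ hA
    exact ⟨σ, fun x hx => ValuationSubring.smul_mem_pointwise_smul σ x 𝒢.A₀ hx⟩
  refine isFlat_of_coords_fibres act hact perm s hsint hseq 𝒢.A₀ htrans hunit (kmCoord 𝒢)
    (fun τ j w => 𝒢.Γ_int τ w j.1 j.2) (fun τ j σ w => 𝒢.Γ_equiv τ σ w j.1 j.2) ?_ ?_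
  · intro w w' h
    apply 𝒢.sep
    intro τ
    ext i a
    exact h τ (i, a)
  · intro τ j
    have key : ∃ Γ₃ : Matrix (Fin n₁) (Fin r) (kmRing 𝒢), Γ₃.submatrix 𝒢.I₀ id = 1 ∧
        ∀ {K' : Type} [Field K'] (f : kmRing 𝒢 →+* K'),
          LinearMap.range (Γ₃.map f).mulVecLin = ((kmDataR 𝒢 τ).map f).W₃ := by
      refine KMRing.exists_sum_matrix (kmDataR 𝒢 τ) (kmDataR_leftInv 𝒢 τ) 𝒢.ρ 𝒢.I₀
        (PtsMax.evalHom (kmRing 𝒢)) (PtsMax.eval_eq_zero _) (fun y => ?_) (fun M hM => ?_)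
      · rw [kmDataR_map_eval]
        exact 𝒢.good_gen τ y.1 y.2
      · obtain ⟨y, A, hA, hle⟩ := exists_redPoint_of_maximal (kmGen 𝒢) (kmGen_int 𝒢) M hM
        obtain ⟨σ, rfl⟩ := exists_smul_eq_of_liesOverPrime 𝒢.A₀ A 𝒢.hA₀ hA
        exact ⟨_, inferInstance, _, hle,
          kmGood_closed 𝒢 hact hact_one hact_mul hperm_one hperm_mul τ y σ hA⟩
    obtain ⟨Γ₃, hΓ₃, hrange⟩ := key
    obtain ⟨P, hP⟩ := (Γ₃ j.1 j.2).2
    refine ⟨P, fun w w' => ?_⟩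
    have h1 := KMRing.eq_map_of_echelon (kmDataR 𝒢 τ) (PtsMax.evalHom (kmRing 𝒢) (w, w')) hΓ₃
      (hrange _) (𝒢.Γ_ech τ (w + w'))
      (by rw [kmDataR_map_eval]; exact (𝒢.sum_gen τ w w').le)
    have h2 : 𝒢.Γ τ (w + w') j.1 j.2 = ((Γ₃ j.1 j.2 : kmRing 𝒢) : W × W → Kb) (w, w') :=
      congrFun (congrFun h1 j.1) j.2
    have h3 : ((Γ₃ j.1 j.2 : kmRing 𝒢) : W × W → Kb) (w, w') =
        MvPolynomial.aeval (fun k => kmGen 𝒢 k (w, w')) P := by
      rw [← aeval_pi_apply]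
      exact congrFun hP.symm (w, w')
    have h4 : (fun k => kmGen 𝒢 k (w, w')) =
        Sum.elim (fun k => kmCoord 𝒢 k.1 k.2 w) (fun k => kmCoord 𝒢 k.1 k.2 w') := by
      funext k
      rcases k with k | k <;> rfl
    rw [← h4, ← h3, ← h2]
    rfl

end Fermat.Agent.FF
end
end MergeWrap_Lib_FF_Formal
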