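import Mathlib
import Fermat.Prelude.Def_ModularCurve_ArithmeticGalois
import Fermat.Agent.Lib.RR.Basic
import Fermat.Agent.MU.Lib.FF.GoodEll.Chart
import Fermat.Agent.MU.S17.H.Setup.Cusp

section MergeWrap_Lib_FF_GalAct -- from Lib/FF/GalAct.lean

set_option autoImplicit false
set_option linter.style.haveILetI false

noncomputable section

open AlgebraicCurve Fermat.Agent.RR Fermat.Agent.FFGoodEll

namespace Fermat.Agent.FFGal

section General

variable {K F : Type*} [Field K] [Field F] [Algebra K F]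

/-- `ord_w (g • f) = ord_{g⁻¹ w} f`. -/
theorem ord_smul_inv (g : SemilinearAut K F) (w : Place K F) (f : F) :
    w.ord (g • f) = (g⁻¹ • w).ord f := by
  have h := SemilinearAut.ord_smul g (g⁻¹ • w) f
  rwa [smul_inv_smul] at h

/-- `div (g • f) = g • div f`. -/
theorem divOf_smul (h : IsRRField K F) (g : SemilinearAut K F) (f : F) :
    divOf h (g • f) = g • divOf h f := by
  ext w
  rw [divOf_apply, SemilinearAut.divisor_smul_apply, divOf_apply, ord_smul_inv]

/-- `g • f ∈ L(g • D) ↔ f ∈ L(D)`. -/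
theorem smul_mem_riemannRochSpace_iff (g : SemilinearAut K F) (D : Divisor K F) (f : F) :
    g • f ∈ riemannRochSpace (g • D) ↔ f ∈ riemannRochSpace D := by
  rw [mem_riemannRochSpace_iff, mem_riemannRochSpace_iff]
  constructor
  · intro h v
    rcases h (g • v) with h0 | h0
    · left
      exact (smul_eq_zero_iff_eq g).mp h0
    · right
      rwa [SemilinearAut.divisor_smul_apply_smul, SemilinearAut.ord_smul] at h0
  · intro h w
    rcases h (g⁻¹ • w) with h0 | h0
    · left
      rw [h0, smul_zero]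
    · right
      rw [SemilinearAut.divisor_smul_apply, ord_smul_inv]
      exact h0

/-- `f ∈ L(g • D) ↔ g⁻¹ • f ∈ L(D)`. -/
theorem mem_riemannRochSpace_smul_iff (g : SemilinearAut K F) (D : Divisor K F) (f : F) :
    f ∈ riemannRochSpace (g • D) ↔ g⁻¹ • f ∈ riemannRochSpace D := by
  have h := smul_mem_riemannRochSpace_iff g D (g⁻¹ • f)
  rwa [smul_inv_smul] at h

/-- the additive bijection `L(D) ≃ L(g • D)`, `f ↦ g • f`. -/
def rrSMulEquiv (g : SemilinearAut K F) (D : Divisor K F) :
    riemannRochSpace D ≃+ riemannRochSpace (g • D) where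
  toFun f := ⟨g • (f : F), (smul_mem_riemannRochSpace_iff g D f).mpr f.2⟩
  invFun f := ⟨g⁻¹ • (f : F), (mem_riemannRochSpace_smul_iff g D f).mp f.2⟩
  left_inv f := Subtype.ext (inv_smul_smul g (f : F))
  right_inv f := Subtype.ext (smul_inv_smul g (f : F))
  map_add' f f' := Subtype.ext (smul_add g (f : F) (f' : F))

@[simp]
theorem coe_rrSMulEquiv (g : SemilinearAut K F) (D : Divisor K F) (f : riemannRochSpace D) :
    ((rrSMulEquiv g D f : riemannRochSpace (g • D)) : F) = g • (f : F) :=
  rfl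

/-- semilinearity: `g • (c • f) = g(c) • (g • f)`. -/
theorem smul_smul_base (g : SemilinearAut K F) (c : K) (f : F) :
    g • (c • f) = (SemilinearAut.baseAut g c) • (g • f) := by
  rw [Algebra.smul_def, Algebra.smul_def, smul_mul', SemilinearAut.smul_algebraMap]

/-- `ℓ(g • D) = ℓ(D)`. -/
theorem ell_smul (g : SemilinearAut K F) (D : Divisor K F) : ell (g • D) = ell D := by
  have h := rank_eq_of_equiv_equiv (R := K) (R' := K) (SemilinearAut.baseAut g)
    (rrSMulEquiv g D) (SemilinearAut.baseAut g).bijective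
    (fun c f => Subtype.ext (smul_smul_base g c (f : F)))
  exact (congrArg Cardinal.toNat h).symm

/-- `0 ≤ D → 0 ≤ g • D`. -/
theorem smul_nonneg (g : SemilinearAut K F) {D : Divisor K F} (hD : 0 ≤ D) : 0 ≤ g • D := by
  rw [Finsupp.le_def] at hD ⊢
  intro w
  rw [SemilinearAut.divisor_smul_apply]
  exact hD _

theorem smul_le_smul (g : SemilinearAut K F) {D D' : Divisor K F} (hD : D ≤ D') :
    g • D ≤ g • D' := by
  rw [Finsupp.le_def] at hD ⊢
  intro w
  rw [SemilinearAut.divisor_smul_apply, SemilinearAut.divisor_smul_apply]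
  exact hD _

/-- `g • (P₁ + ... + P_n) = g P₁ + ... + g P_n`. -/
theorem smul_sumTuple (g : SemilinearAut K F) {n : ℕ} (Q : Fin n → Place K F) :
    g • sumTuple Q = sumTuple (fun i => g • Q i) := by
  unfold sumTuple
  rw [Finset.smul_sum]
  exact Finset.sum_congr rfl fun i _ => SemilinearAut.smul_single g (Q i) 1

/-- goodness for the chart is invariant. -/
theorem isGoodDiv_smul (g : SemilinearAut K F) {P : Place K F} {Y : Divisor K F}
    (hY : IsGoodDiv P Y) : IsGoodDiv (g • P) (g • Y) := by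
  constructor
  · have e : g • Y - Finsupp.single (g • P) 1 = g • (Y - Finsupp.single P 1) := by
      rw [smul_sub, SemilinearAut.smul_single]
    rw [e, ell_smul]
    exact hY.1
  · have e : Finsupp.single (g • P) (2 * (genusFF K F : ℤ) - 1) - g • Y
        = g • (Finsupp.single P (2 * (genusFF K F : ℤ) - 1) - Y) := by
      rw [smul_sub, SemilinearAut.smul_single]
    rw [e, ell_smul]
    exact hY.2

theorem isGoodDiv_smul_iff (g : SemilinearAut K F) {P : Place K F} {Y : Divisor K F} :
    IsGoodDiv (g • P) (g • Y) ↔ IsGoodDiv P Y := by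
  refine ⟨fun h => ?_, isGoodDiv_smul g⟩
  have := isGoodDiv_smul g⁻¹ h
  rwa [inv_smul_smul, inv_smul_smul] at this

/-- `D` is an effective representative of the class `x` relative to `E`:
`D ≥ 0` and the class of `D - E` (of degree `0`) is `x`. -/
def IsRepOf (x : Pic0 K F) (E D : Divisor K F) : Prop :=
  0 ≤ D ∧ ∃ h0 : D - E ∈ Divisor.degZero (K := K) (F := F), Pic0.mk ⟨D - E, h0⟩ = x

/-- representatives are permuted by semilinear automorphisms. -/
theorem IsRepOf.smul (g : SemilinearAut K F) {x : Pic0 K F} {E D : Divisor K F}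
    (h : IsRepOf x E D) : IsRepOf (g • x) (g • E) (g • D) := by
  obtain ⟨hD, h0, hx⟩ := h
  have h0' : g • D - g • E ∈ Divisor.degZero (K := K) (F := F) := by
    rw [← smul_sub]
    exact SemilinearAut.smul_mem_degZero g h0
  refine ⟨smul_nonneg g hD, h0', ?_⟩
  rw [← hx, SemilinearAut.pic0_smul_mk]
  refine congrArg Pic0.mk (Subtype.ext ?_)
  rw [SemilinearAut.coe_degZeroSMulHom]
  exact (smul_sub g D E).symm

/-- two representatives of the same class differ by a principal divisor. -/
theorem IsRepOf.exists_divOf (h : IsRRField K F) {x : Pic0 K F} {E D D' : Divisor K F}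
    (hD : IsRepOf x E D) (hD' : IsRepOf x E D') :
    ∃ f : F, f ≠ 0 ∧ D' = D + divOf h f := by
  obtain ⟨-, h0, hx⟩ := hD
  obtain ⟨-, h0', hx'⟩ := hD'
  have hprin : ((⟨D' - E, h0'⟩ : Divisor.degZero (K := K) (F := F)) - ⟨D - E, h0⟩ :
      Divisor.degZero (K := K) (F := F)) ∈
      (Divisor.principal (K := K) (F := F)).addSubgroupOf (Divisor.degZero (K := K) (F := F)) := by
    have : Pic0.mk (⟨D' - E, h0'⟩ - ⟨D - E, h0⟩) = 0 := by
      have e : Pic0.mk ((⟨D' - E, h0'⟩ : Divisor.degZero (K := K) (F := F)) - ⟨D - E, h0⟩)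
          = Pic0.mk ⟨D' - E, h0'⟩ - Pic0.mk ⟨D - E, h0⟩ := rfl
      rw [e, hx, hx', sub_self]
    exact (QuotientAddGroup.eq_zero_iff _).mp this
  rw [AddSubgroup.mem_addSubgroupOf] at hprin
  obtain ⟨f, hf, hfD⟩ := hprin
  refine ⟨f, hf, ?_⟩
  ext w
  have h1 := hfD w
  have h2 : ((((⟨D' - E, h0'⟩ : Divisor.degZero (K := K) (F := F)) - ⟨D - E, h0⟩ :
      Divisor.degZero (K := K) (F := F)) : Divisor K F)) w = D' w - D w := by
    show ((D' - E) - (D - E)) w = D' w - D w
    simp
  rw [h2] at h1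
  rw [Finsupp.add_apply, divOf_apply]
  omega

/-- **uniqueness** of the effective representative when `ℓ(D) = 1`. -/
theorem IsRepOf.unique (h : IsRRField K F) {x : Pic0 K F} {E D D' : Divisor K F}
    (hD : IsRepOf x E D) (hell : ell D = 1) (hD' : IsRepOf x E D') : D' = D := by
  obtain ⟨f, hf, hfD⟩ := IsRepOf.exists_divOf h hD hD'
  -- `f ∈ L(D)` and `1 ∈ L(D)`
  have hfmem : f ∈ riemannRochSpace D := by
    rw [mem_riemannRochSpace_iff_le h hf]
    have h1 : 0 ≤ D' := hD'.1
    rw [hfD] at h1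
    rw [Finsupp.le_def] at h1 ⊢
    intro w
    have h2 : (0 : ℤ) ≤ D w + (divOf h f) w := by
      have := h1 w
      rwa [Finsupp.add_apply] at this
    rw [Finsupp.neg_apply]
    omega
  have h1mem : (1 : F) ∈ riemannRochSpace D := by
    have := algebraMap_mem_riemannRochSpace_zero (K := K) (F := F) (1 : K)
    rw [map_one] at this
    exact riemannRochSpace_mono hD.1 this
  -- proportional
  have hfin := finite_riemannRochSpace h D
  have hone : (⟨1, h1mem⟩ : riemannRochSpace D) ≠ 0 := by
    intro h0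
    exact one_ne_zero (congrArg Subtype.val h0)
  obtain ⟨c, hc⟩ := (finrank_eq_one_iff_of_nonzero' (⟨1, h1mem⟩ : riemannRochSpace D) hone).mp
    hell ⟨f, hfmem⟩
  have hfc : f = algebraMap K F c := by
    have := congrArg Subtype.val hc
    simp only [Submodule.coe_smul] at this
    rw [← this, Algebra.smul_def, mul_one]
  have hdiv : divOf h f = 0 := by
    ext w
    rw [divOf_apply, hfc, Fermat.Agent.S24Res.ord_algebraMap]
    rfl
  rw [hfD, hdiv, add_zero]

/-- `D_{g x}^{g E} = g • D_x^E`: if `D` is the representative of `x` relative to `E` with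
`ℓ(D) = 1`, then every representative of `g • x` relative to `g • E` is `g • D`. -/
theorem IsRepOf.smul_eq (h : IsRRField K F) (g : SemilinearAut K F) {x : Pic0 K F}
    {E D D' : Divisor K F} (hD : IsRepOf x E D) (hell : ell D = 1)
    (hD' : IsRepOf (g • x) (g • E) D') : D' = g • D :=
  IsRepOf.unique h (hD.smul g) (by rw [ell_smul]; exact hell) hD'

end General

section Modular

open ModularCurve

local notation "Qb" => AlgebraicClosure ℚ
local notation "GQ" => (AlgebraicClosure ℚ ≃ₐ[ℚ] AlgebraicClosure ℚ)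

variable (M : ℕ)

/-- the semilinear automorphism of `F_M` attached to `σ ∈ G_ℚ` (coefficientwise action on
`q`-expansions). -/
def galQ (σ : GQ) : SemilinearAut Qb ↥(modularFunctionFieldBar M) :=
  arithmeticGalois (modularFunctionFieldFull M) σ

theorem galQ_one : galQ M 1 = 1 := map_one _

theorem galQ_mul (σ τ : GQ) : galQ M (σ * τ) = galQ M σ * galQ M τ := map_mul _ σ τ

theorem galQ_inv (σ : GQ) : galQ M σ⁻¹ = (galQ M σ)⁻¹ := map_inv _ σ

/-- the action of `G_ℚ` on `J₀(M)` is the action through `galQ`. -/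
theorem galQ_smul_jZero (σ : GQ) (x : JZero M) : σ • x = galQ M σ • x := rfl

theorem coe_galQ_smul (σ : GQ) (f : modularFunctionFieldBar M) :
    ((galQ M σ • f : modularFunctionFieldBar M) : LaurentSeries Qb) =
      coeffMap (σ : Qb →+* Qb) (f : LaurentSeries Qb) := rfl

/-- `σ • ∞ = ∞`. -/
theorem galQ_smul_cuspPlace (σ : GQ) :
    galQ M σ • Fermat.Agent.S17.Setup.cuspPlace M = Fermat.Agent.S17.Setup.cuspPlace M :=
  Fermat.Agent.S17.Setup.galPlace_cuspPlace M σ

/-- a place with the same valuation ring as the cusp (`f` regular iff no polar part) is the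
cusp: bridge for other definitions of `∞`. -/
theorem eq_cuspPlace_of_mem_iff (P : Place Qb ↥(modularFunctionFieldBar M))
    (hP : ∀ f : modularFunctionFieldBar M, f ∈ P.toValuationSubring ↔
      ∀ n : ℤ, n < 0 → (f : LaurentSeries Qb).coeff n = 0) :
    P = Fermat.Agent.S17.Setup.cuspPlace M := by
  apply Place.ext
  ext f
  rw [hP, Fermat.Agent.S17.Setup.mem_cuspPlace_iff]

/-- `σ • (T · ∞) = T · ∞`. -/
theorem galQ_smul_single_cuspPlace (σ : GQ) (n : ℤ) :
    galQ M σ • (Finsupp.single (Fermat.Agent.S17.Setup.cuspPlace M) n :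
        Divisor Qb ↥(modularFunctionFieldBar M)) =
      Finsupp.single (Fermat.Agent.S17.Setup.cuspPlace M) n := by
  rw [SemilinearAut.smul_single, galQ_smul_cuspPlace]

/-- `f ∈ L(T·∞ - D) ↔ σ f ∈ L(T·∞ - σ D)`. -/
theorem galQ_smul_mem_rr_cusp_iff (σ : GQ) (n : ℤ)
    (D : Divisor Qb ↥(modularFunctionFieldBar M)) (f : modularFunctionFieldBar M) :
    galQ M σ • f ∈ riemannRochSpace
        (Finsupp.single (Fermat.Agent.S17.Setup.cuspPlace M) n - galQ M σ • D) ↔
      f ∈ riemannRochSpace (Finsupp.single (Fermat.Agent.S17.Setup.cuspPlace M) n - D) := by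
  have e : Finsupp.single (Fermat.Agent.S17.Setup.cuspPlace M) n - galQ M σ • D
      = galQ M σ • (Finsupp.single (Fermat.Agent.S17.Setup.cuspPlace M) n - D) := by
    rw [smul_sub, galQ_smul_single_cuspPlace]
  rw [e]
  exact smul_mem_riemannRochSpace_iff _ _ _

/-- goodness at the cusp is Galois invariant. -/
theorem isGoodDiv_cusp_galQ (σ : GQ) {Y : Divisor Qb ↥(modularFunctionFieldBar M)}
    (hY : IsGoodDiv (Fermat.Agent.S17.Setup.cuspPlace M) Y) :
    IsGoodDiv (Fermat.Agent.S17.Setup.cuspPlace M) (galQ M σ • Y) := by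
  have := isGoodDiv_smul (galQ M σ) hY
  rwa [galQ_smul_cuspPlace] at this

/-- **GAL (d)**: `D_{σ x}^{σ τ} = σ • D_x^τ`. -/
theorem isRepOf_galQ (σ : GQ) {x : JZero M} {g : ℕ}
    {τ : Fin g → Place Qb ↥(modularFunctionFieldBar M)}
    {D : Divisor Qb ↥(modularFunctionFieldBar M)} (hD : IsRepOf x (sumTuple τ) D) :
    IsRepOf (σ • x) (sumTuple fun i => galQ M σ • τ i) (galQ M σ • D) := by
  have := hD.smul (galQ M σ)
  rwa [smul_sumTuple] at this

end Modular

end Fermat.Agent.FFGal
end
end MergeWrap_Lib_FF_GalAct
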