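import Mathlib
import Fermat.Agent.MU.Lib.FF.RedCore
import Fermat.Agent.MU.Lib.FF.RedEchelon
import Fermat.Agent.MU.Lib.FF.GoodEll.Chart

section MergeWrap_Lib_FF_RedGood -- from Lib/FF/RedGood.lean

/-!
# S19 / route R-G, seat D2 (helper12): echelon matrices of `L(m P - D)` are integral and reduce

Blueprint `NOTES/blueprint-FF-S19.md`, §3 (D2).  Abstract constant reduction
`S : Deuring.ValSetup K F k Fk` with the lattice property, `r` a Deuring reduction of places
(`IsReduction S r`, `Lib/FF/RedCore.lean`), genus equality `hg`.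

* `redSpace_chartSpan` : the reduction of the chart of an orthonormal family is the chart of the
  reduced family;
* `echelon_of_isGoodDiv` : `b` an orthonormal basis of `L(m P)` (`m ≥ 3g`) whose chart (the `b j`,
  `j` not a pivot) spans `L((2g-1) P)`; `D ≥ 0` of degree `g` such that the REDUCED divisor
  `r_* D` is good for the chart at `r P` (`FFGoodEll.IsGoodDiv (r P) (redDiv r D)`).  Then the
  echelon matrix `Γ` of `L(m P - D)` exists, has entries in the valuation ring `S.A`, and its
  residue is the echelon matrix of `L(m (r P) - r_* D)` in the reduced basis.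
* `echelon_entries_of_isGoodDiv` : uniqueness form, convenient for the assembly: ANY echelon
  matrix `Γ'` over `K` with column space `L(m P - D)` has its entries in `S.A`, and the matrix of
  the residues of its entries is the echelon matrix of `L(m (r P) - r_* D)`.
-/

set_option autoImplicit false

noncomputable section

open AlgebraicCurve Fermat.Agent.RR Fermat.Agent.Deuring Fermat.Agent.FFGoodEll

namespace Fermat.Agent.FF

variable {K F k Fk : Type*} [Field K] [Field F] [Algebra K F]
  [Field k] [Field Fk] [Algebra k Fk]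

/-- the reduction of the chart of an orthonormal family is the chart of the reduced family. -/
theorem redSpace_chartSpan (S : ValSetup K F k Fk) {n ρ : ℕ} (b : Fin n → F)
    (hb : ∀ i, b i ∈ S.Ov) (hli : LinearIndependent k (fun i => S.red (b i)))
    (I₀ : Fin ρ → Fin n) :
    redSpace S (chartSpan K b I₀) = chartSpan k (fun i => S.red (b i)) I₀ := by
  have hK : LinearIndependent K b := linearIndependent_of_red S b hb hli
  apply le_antisymm
  · intro y hy
    obtain ⟨x, hxW, hxO, rfl⟩ := (mem_redSpace_iff S _).mp hy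
    obtain ⟨v, hv, rfl⟩ := exists_coord_of_mem_chartSpan hxW
    have hc := coeff_mem_of_sum_mem S b hb hli v hxO
    rw [(red_sum S b hb v hc).2]
    refine sum_mem_chartSpan fun a => ?_
    have h1 : (⟨v (I₀ a), hc (I₀ a)⟩ : S.A) = 0 := Subtype.ext (hv a)
    rw [h1, map_zero]
  · unfold chartSpan
    rw [Submodule.span_le]
    rintro _ ⟨j, hj, rfl⟩
    exact red_mem_redSpace S _ (Submodule.subset_span ⟨j, hj, rfl⟩) (hb j)

/-- **(D2) Echelon matrices of `L(m P - D)` are integral and reduce.** -/
theorem echelon_of_isGoodDiv (S : ValSetup K F k Fk) (hL : HasLattice S)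
    {r : Place K F → Place k Fk} (hr : IsReduction S r)
    (hg : genusFF K F = genusFF k Fk) (P : Place K F) {m : ℤ}
    (hm : 3 * (genusFF K F : ℤ) ≤ m) {n ρ : ℕ} (hρ : (ρ : ℤ) = m + 1 - 2 * (genusFF K F : ℤ))
    (b : Fin n → F) (hb : ∀ i, b i ∈ S.Ov)
    (hli : LinearIndependent k (fun i => S.red (b i)))
    (hspan : Submodule.span K (Set.range b) = riemannRochSpace (Finsupp.single P m))
    (I₀ : Fin ρ → Fin n)
    (hchart : chartSpan K b I₀ =
      riemannRochSpace (Finsupp.single P (2 * (genusFF K F : ℤ) - 1)))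
    {D : Divisor K F} (hD0 : 0 ≤ D) (hdeg : Divisor.degree D = (genusFF K F : ℤ))
    (hgood : IsGoodDiv (r P) (redDiv r D)) :
    ∃ Γ : Matrix (Fin n) (Fin ρ) S.A, Γ.submatrix I₀ id = 1 ∧
      riemannRochSpace (Finsupp.single P m - D) = colSpan b (Γ.map S.A.subtype) ∧
      riemannRochSpace (Finsupp.single (r P) m - redDiv r D) =
        colSpan (fun i => S.red (b i)) (Γ.map S.res) ∧
      riemannRochSpace (Finsupp.single P m - D) ⊓ chartSpan K b I₀ = ⊥ ∧
      riemannRochSpace (Finsupp.single P m - D) ⊔ chartSpan K b I₀ =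
        riemannRochSpace (Finsupp.single P m) := by
  have hg0 : (0 : ℤ) ≤ (genusFF K F : ℤ) := Int.natCast_nonneg _
  have hdegW : Divisor.degree (Finsupp.single P m - D) = m - (genusFF K F : ℤ) := by
    rw [map_sub, degree_single_one S.hF, hdeg]
  -- `W ≤ span b`
  have hW : riemannRochSpace (Finsupp.single P m - D) ≤ Submodule.span K (Set.range b) := by
    rw [hspan]
    exact riemannRochSpace_mono (sub_le_self _ hD0)
  -- dimension of `W`
  have hfr : Module.finrank K (riemannRochSpace (Finsupp.single P m - D)) = ρ := by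
    have h1 := ell_of_degree_gt S.hF (D := Finsupp.single P m - D) (by rw [hdegW]; omega)
    rw [hdegW] at h1
    have h2 : (ell (Finsupp.single P m - D) : ℤ) = ρ := by rw [h1, hρ]; ring
    have h3 : ell (Finsupp.single P m - D) = ρ := by exact_mod_cast h2
    exact h3
  -- the reduction of `W`
  have hredW : redSpace S (riemannRochSpace (Finsupp.single P m - D)) =
      riemannRochSpace (Finsupp.single (r P) m - redDiv r D) := by
    rw [hr.redSpace_eq (by rw [hdegW]; omega), map_sub, redDiv_single]
  -- the reduction of the chart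
  have hredC : chartSpan k (fun i => S.red (b i)) I₀ =
      riemannRochSpace (Finsupp.single (r P) (2 * (genusFF k Fk : ℤ) - 1)) := by
    rw [← redSpace_chartSpan S b hb hli I₀, hchart, ← hg]
    have h1 : ell (redDiv r (Finsupp.single P (2 * (genusFF K F : ℤ) - 1))) ≤
        ell (Finsupp.single P (2 * (genusFF K F : ℤ) - 1)) := by
      rw [redDiv_single, ell_chart S.hF P, hg, ell_chart S.hFk (r P)]
    rw [hr.redSpace_eq_of_ell hL h1, redDiv_single]
  have hdisj : redSpace S (riemannRochSpace (Finsupp.single P m - D)) ⊓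
      chartSpan k (fun i => S.red (b i)) I₀ = ⊥ := by
    rw [hredW, hredC]
    exact hgood.inf_eq_bot S.hFk (redDiv_nonneg r hD0) m
  obtain ⟨Γ, hΓ, hWΓ, hredΓ, hinf, hsup⟩ :=
    exists_echelon_lift_of_disjoint S hL b hb hli _ hW I₀ hfr hdisj
  refine ⟨Γ, hΓ, hWΓ, ?_, hinf, ?_⟩
  · rw [← hredW]
    exact hredΓ
  · rw [hsup, hspan]

/-- **(D2), uniqueness form.**  In the situation of `echelon_of_isGoodDiv`, ANY echelon matrix
`Γ'` over `K` of `L(m P - D)` has entries in the valuation ring, and the residues of its entries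
form the echelon matrix of `L(m (r P) - r_* D)`. -/
theorem echelon_entries_of_isGoodDiv (S : ValSetup K F k Fk) (hL : HasLattice S)
    {r : Place K F → Place k Fk} (hr : IsReduction S r)
    (hg : genusFF K F = genusFF k Fk) (P : Place K F) {m : ℤ}
    (hm : 3 * (genusFF K F : ℤ) ≤ m) {n ρ : ℕ} (hρ : (ρ : ℤ) = m + 1 - 2 * (genusFF K F : ℤ))
    (b : Fin n → F) (hb : ∀ i, b i ∈ S.Ov)
    (hli : LinearIndependent k (fun i => S.red (b i)))
    (hspan : Submodule.span K (Set.range b) = riemannRochSpace (Finsupp.single P m))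
    (I₀ : Fin ρ → Fin n)
    (hchart : chartSpan K b I₀ =
      riemannRochSpace (Finsupp.single P (2 * (genusFF K F : ℤ) - 1)))
    {D : Divisor K F} (hD0 : 0 ≤ D) (hdeg : Divisor.degree D = (genusFF K F : ℤ))
    (hgood : IsGoodDiv (r P) (redDiv r D))
    (Γ' : Matrix (Fin n) (Fin ρ) K) (hΓ' : Γ'.submatrix I₀ id = 1)
    (hcol : colSpan b Γ' = riemannRochSpace (Finsupp.single P m - D)) :
    ∃ h : ∀ i a, Γ' i a ∈ S.A,
      (Matrix.of fun i a => S.res ⟨Γ' i a, h i a⟩ : Matrix (Fin n) (Fin ρ) k).submatrix I₀ id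
        = 1 ∧
      riemannRochSpace (Finsupp.single (r P) m - redDiv r D) =
        colSpan (fun i => S.red (b i)) (Matrix.of fun i a => S.res ⟨Γ' i a, h i a⟩) := by
  obtain ⟨Γ, hΓ, hWΓ, hredΓ, -, -⟩ :=
    echelon_of_isGoodDiv S hL hr hg P hm hρ b hb hli hspan I₀ hchart hD0 hdeg hgood
  have hK : LinearIndependent K b := linearIndependent_of_red S b hb hli
  have hΓK : (Γ.map S.A.subtype).submatrix I₀ id = 1 := by
    have h2 : (Γ.map S.A.subtype).submatrix I₀ id = (Γ.submatrix I₀ id).map S.A.subtype := rfl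
    rw [h2, hΓ]
    ext i j
    simp [Matrix.one_apply, apply_ite]
  have heq : Γ' = Γ.map S.A.subtype :=
    echelon_eq_of_colSpan_eq hK hΓK hΓ' (hcol.trans hWΓ)
  have h : ∀ i a, Γ' i a ∈ S.A := by
    intro i a
    rw [heq]
    exact (Γ i a).2
  have hres : (Matrix.of fun i a => S.res ⟨Γ' i a, h i a⟩ : Matrix (Fin n) (Fin ρ) k)
      = Γ.map S.res := by
    ext i a
    simp only [Matrix.of_apply, Matrix.map_apply]
    congr 1
    apply Subtype.ext
    show Γ' i a = (Γ i a : K)
    rw [heq]
    rfl
  refine ⟨h, ?_, ?_⟩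
  · rw [hres]
    have h2 : (Γ.map S.res).submatrix I₀ id = (Γ.submatrix I₀ id).map S.res := rfl
    rw [h2, hΓ]
    ext i j
    simp [Matrix.one_apply, apply_ite]
  · rw [hres]
    exact hredΓ

end Fermat.Agent.FF
end
end MergeWrap_Lib_FF_RedGood
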