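import Mathlib
import Fermat.Agent.MU.Lib.FF.GeomEch
import Fermat.Agent.MU.Lib.FF.KMBridge
import Fermat.Agent.Lib.FF.FormalDefs

section MergeWrap_Lib_FF_GeomGood -- from Lib/FF/GeomGood.lean

set_option autoImplicit false

noncomputable section

open AlgebraicCurve Fermat.Agent.RR Fermat.Agent.RRMult Fermat.Agent.FFGoodEll Fermat.Agent.FF
  Fermat.Agent.FFGal Fermat.Agent.KMRing Fermat.Agent.KMBridge

namespace Fermat.Agent.FFGeomGood

variable {K F : Type*} [Field K] [Field F] [Algebra K F]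

theorem two_nsmul_single_place (P : Place K F) (n : ℤ) :
    (2 • (Finsupp.single P n : Divisor K F)) = Finsupp.single P (2 * n) := by
  rw [two_nsmul, ← Finsupp.single_add, two_mul]

/-- the span of the columns in the notation of `KMBridge` is `colSpan`. -/
theorem span_coord_eq_colSpan {n e : ℕ} (b : Fin n → F) (X : Matrix (Fin n) (Fin e) K) :
    Submodule.span K (Set.range fun a => coord (K := K) b fun i => X i a) = colSpan b X := by
  unfold colSpan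
  congr 1

/-- for `deg A ≥ 2g`, `L(A) ≤ L(B)` forces `A ≤ B`. -/
theorem le_of_rrSpace_le (h : IsRRField K F) {A B : Divisor K F}
    (hA : 2 * (genusFF K F : ℤ) ≤ Divisor.degree A)
    (hle : riemannRochSpace A ≤ riemannRochSpace B) : A ≤ B := by
  rw [Finsupp.le_def]
  intro v
  obtain ⟨f, hf, hf0, hfv⟩ := exists_ord_eq h hA v
  have h1 := (mem_riemannRochSpace_iff.mp (hle hf) v).resolve_left hf0
  omega

/-- for `deg A, deg B ≥ 2g`, `L(A) = L(B)` forces `A = B`. -/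
theorem eq_of_rrSpace_eq (h : IsRRField K F) {A B : Divisor K F}
    (hA : 2 * (genusFF K F : ℤ) ≤ Divisor.degree A)
    (hB : 2 * (genusFF K F : ℤ) ≤ Divisor.degree B)
    (heq : riemannRochSpace A = riemannRochSpace B) : A = B :=
  le_antisymm (le_of_rrSpace_le h hA heq.le) (le_of_rrSpace_le h hB heq.ge)

/-- representatives of `x`, `y`, `x + y` relative to `E`: `D₃ ∼ D₁ + D₂ - E`. -/
theorem exists_divOf_of_isRepOf_add (h : IsRRField K F) {x y : Pic0 K F}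
    {E D₁ D₂ D₃ : Divisor K F} (h₁ : IsRepOf x E D₁) (h₂ : IsRepOf y E D₂)
    (h₃ : IsRepOf (x + y) E D₃) :
    ∃ f : F, f ≠ 0 ∧ D₃ = D₁ + D₂ - E + divOf h f := by
  obtain ⟨-, a₁, hx⟩ := h₁
  obtain ⟨-, a₂, hy⟩ := h₂
  obtain ⟨-, a₃, hxy⟩ := h₃
  have hprin : ((⟨D₃ - E, a₃⟩ : Divisor.degZero (K := K) (F := F)) -
      (⟨D₁ - E, a₁⟩ + ⟨D₂ - E, a₂⟩) : Divisor.degZero (K := K) (F := F)) ∈
      (Divisor.principal (K := K) (F := F)).addSubgroupOf (Divisor.degZero (K := K) (F := F)) := by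
    have : Pic0.mk ((⟨D₃ - E, a₃⟩ : Divisor.degZero (K := K) (F := F)) -
        (⟨D₁ - E, a₁⟩ + ⟨D₂ - E, a₂⟩)) = 0 := by
      have e : Pic0.mk ((⟨D₃ - E, a₃⟩ : Divisor.degZero (K := K) (F := F)) -
          (⟨D₁ - E, a₁⟩ + ⟨D₂ - E, a₂⟩))
          = Pic0.mk ⟨D₃ - E, a₃⟩ - (Pic0.mk ⟨D₁ - E, a₁⟩ + Pic0.mk ⟨D₂ - E, a₂⟩) := rfl
      rw [e, hx, hy, hxy, sub_self]
    exact (QuotientAddGroup.eq_zero_iff _).mp this
  rw [AddSubgroup.mem_addSubgroupOf] at hprin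
  obtain ⟨f, hf, hfD⟩ := hprin
  refine ⟨f, hf, ?_⟩
  ext w
  have h1 := hfD w
  have h2 : ((((⟨D₃ - E, a₃⟩ : Divisor.degZero (K := K) (F := F)) -
      (⟨D₁ - E, a₁⟩ + ⟨D₂ - E, a₂⟩) : Divisor.degZero (K := K) (F := F)) : Divisor K F)) w
      = D₃ w - E w - (D₁ w - E w + (D₂ w - E w)) := by
    show ((D₃ - E) - ((D₁ - E) + (D₂ - E))) w = _
    simp
  rw [h2] at h1
  simp only [Finsupp.add_apply, Finsupp.sub_apply, divOf_apply]
  omega

end Fermat.Agent.FFGeomGood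

namespace Fermat.Agent.FFGeom

namespace EchData

open Fermat.Agent.FFGeomGood

variable {G K F W T : Type} [Group G] [Field K] [Field F] [Algebra K F] [AddCommGroup W]

/-- **multiplication tables** for the bases of an `EchData`: a family `b₄` containing the
products of the `b₂`, and the structure constants `m₁ : L(T) × L(T) → L(2T)`,
`m₂ : L(2T) × L(2T) → span b₄`. -/
structure MulTable (d : EchData G K F W T) (n₄ : ℕ) where
  /-- basis of (a space containing) `L(2T) · L(2T)` -/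
  b₄ : Fin n₄ → F
  hb₄ : LinearIndependent K b₄
  /-- structure constants `L(T) × L(T) → L(2T)` -/
  m₁ : Fin d.n₁ → Fin d.n₁ → Fin d.n₂ → K
  /-- structure constants `L(2T) × L(2T) → span b₄` -/
  m₂ : Fin d.n₂ → Fin d.n₂ → Fin n₄ → K
  hm₁ : ∀ i j, d.b₁ i * d.b₁ j = ∑ k, m₁ i j k • d.b₂ k
  hm₂ : ∀ i j, d.b₂ i * d.b₂ j = ∑ k, m₂ i j k • b₄ k

variable {d : EchData G K F W T} {n₄ : ℕ} (μ : d.MulTable n₄)

/-- the Khuri-Makdisi data at the pair of points `(x, y)` for the tuple `τ`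
(`= FF.kmDataAt μ.m₁ μ.m₂ (d.Γ τ) (d.X τ) x y` for `K = ℚ̄`, see `kmData_eq_kmDataAt`). -/
def kmData (τ : T) (x y : W) : KMData K d.n₁ d.n₂ n₄ d.r d.r d.r d.e₂ where
  m₁ := μ.m₁
  m₂ := μ.m₂
  Γx := d.Γ τ x
  Γy := d.Γ τ y
  E₁ := d.Γ τ 0
  E₂ := d.X τ

/-- **the characteristic-0 dictionary** between `kmData μ τ x y` and the function field. -/
def kmCoord (τ : T) (x y : W) :
    KMCoord (Finsupp.single d.P d.T₀) (d.D τ x) (d.D τ y) (d.E τ) (kmData μ τ x y) where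
  b₁ := d.b₁
  b₂ := d.b₂
  b₄ := μ.b₄
  li₁ := d.hb₁
  li₂ := d.hb₂
  li₄ := μ.hb₄
  span₁ := d.span₁
  span₂ := by
    rw [two_nsmul_single_place]
    exact d.span₂
  hm₁ := μ.hm₁
  hm₂ := μ.hm₂
  hΓx := by
    rw [span_coord_eq_colSpan]
    exact d.colSpan_Γ τ x
  hΓy := by
    rw [span_coord_eq_colSpan]
    exact d.colSpan_Γ τ y
  hE₁ := by
    rw [span_coord_eq_colSpan]
    exact d.colSpan_Γ_zero τ
  hE₂ := by
    rw [span_coord_eq_colSpan, two_nsmul_single_place]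
    exact d.colSpan_X τ

@[simp] theorem kmCoord_b₁ (τ : T) (x y : W) : (kmCoord μ τ x y).b₁ = d.b₁ := rfl
@[simp] theorem kmCoord_b₂ (τ : T) (x y : W) : (kmCoord μ τ x y).b₂ = d.b₂ := rfl
@[simp] theorem kmCoord_b₄ (τ : T) (x y : W) : (kmCoord μ τ x y).b₄ = μ.b₄ := rfl

variable (d)

theorem degree_T₀_sub_D (τ : T) (w : W) :
    Divisor.degree (Finsupp.single d.P d.T₀ - d.D τ w) = d.T₀ - (genusFF K F : ℤ) := by
  rw [map_sub, degree_single_one d.hF, d.degree_D]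

/-- **the Riemann-Roch hypotheses** of the Khuri-Makdisi step at `(x, y)`:
`D₃ = D τ (x + y)`. -/
theorem kmHyp (hT₀ : 4 * (genusFF K F : ℤ) ≤ d.T₀) (τ : T) (x y : W) :
    KMCoord.KMHyp d.hF (Finsupp.single d.P d.T₀) (d.D τ x) (d.D τ y) (d.D τ (x + y)) (d.E τ) where
  hx := by
    rw [d.degree_T₀_sub_D]
    omega
  hy := by
    rw [d.degree_T₀_sub_D]
    omega
  hE := by
    rw [map_sub, degree_single_one d.hF, d.E_deg]
    have hg : (0 : ℤ) ≤ (genusFF K F : ℤ) := Int.natCast_nonneg _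
    omega
  hell := d.ell_D τ (x + y)
  hD₃ := d.D_nonneg τ (x + y)
  equiv := exists_divOf_of_isRepOf_add d.hF (d.isRepOf_D τ x) (d.isRepOf_D τ y) (by
    rw [← map_add]
    exact d.isRepOf_D τ (x + y))

variable {d}

/-- **`good_gen`**: the pointwise Khuri-Makdisi rank statements on the generic fibre. -/
theorem kmGood_gen [Infinite K] (hT₀ : 4 * (genusFF K F : ℤ) ≤ d.T₀) {ρ : ℕ}
    (hρ : (ρ : ℤ) = 2 * d.T₀ + 1 - 3 * (genusFF K F : ℤ)) (τ : T) (x y : W) :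
    KMGood (kmData μ τ x y) ρ d.I₁ := by
  have hg : (0 : ℤ) ≤ (genusFF K F : ℤ) := Int.natCast_nonneg _
  refine KMCoord.kmGood_of_isGoodDiv (kmCoord μ τ x y) d.hF (d.kmHyp hT₀ τ x y)
    (d.isGoodDiv_D τ (x + y)) ?_ ?_ ?_ d.I₁ ?_
  · rw [d.degree_T₀_sub_D]
    omega
  · rw [hρ, map_sub, map_sub, two_nsmul_single_place, degree_single_one d.hF, d.degree_D,
      d.degree_D]
    ring
  · rw [d.degree_T₀_sub_D, d.hr]
    ring
  · intro j hj
    rw [← d.chart₁]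
    exact Submodule.subset_span ⟨j, hj, rfl⟩

/-- **`sum_gen`**: the result of the Khuri-Makdisi step is `L(T₀ P - D τ (x + y))`, i.e. the
column space of `Γ τ (x + y)`. -/
theorem range_Γ_add [Infinite K] (hT₀ : 4 * (genusFF K F : ℤ) ≤ d.T₀) (τ : T) (x y : W) :
    LinearMap.range (d.Γ τ (x + y)).mulVecLin = (kmData μ τ x y).W₃ := by
  apply Submodule.map_injective_of_injective (kmCoord μ τ x y).inj₁
  rw [(kmCoord μ τ x y).map_W₃ d.hF (d.kmHyp hT₀ τ x y), KMCoord.map_range_mulVecLin,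
    kmCoord_b₁, span_coord_eq_colSpan, d.colSpan_Γ]

variable (d)

/-- `Γ τ w` determines the divisor `D τ w`. -/
theorem D_eq_of_Γ_eq (hT₀ : 3 * (genusFF K F : ℤ) ≤ d.T₀) {τ : T} {w w' : W}
    (h : d.Γ τ w = d.Γ τ w') : d.D τ w = d.D τ w' := by
  have h1 : riemannRochSpace (Finsupp.single d.P d.T₀ - d.D τ w)
      = riemannRochSpace (Finsupp.single d.P d.T₀ - d.D τ w') := by
    rw [← d.colSpan_Γ, ← d.colSpan_Γ, h]
  have h2 := eq_of_rrSpace_eq d.hF (by rw [d.degree_T₀_sub_D]; omega)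
    (by rw [d.degree_T₀_sub_D]; omega) h1
  exact sub_right_injective h2

/-- `Γ τ w` determines the class of `w`. -/
theorem cls_eq_of_Γ_eq (hT₀ : 3 * (genusFF K F : ℤ) ≤ d.T₀) {τ : T} {w w' : W}
    (h : d.Γ τ w = d.Γ τ w') : d.cls w = d.cls w' := by
  have hD := d.D_eq_of_Γ_eq hT₀ h
  obtain ⟨-, a, ha⟩ := d.isRepOf_D τ w
  obtain ⟨-, a', ha'⟩ := d.isRepOf_D τ w'
  rw [← ha, ← ha']
  refine congrArg Pic0.mk (Subtype.ext ?_)
  show d.D τ w - d.E τ = d.D τ w' - d.E τ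
  rw [hD]

/-- **`sep`**: the echelon matrices separate the points. -/
theorem eq_of_Γ_eq [Nonempty T] (hT₀ : 3 * (genusFF K F : ℤ) ≤ d.T₀)
    (hinj : Function.Injective d.cls) {w w' : W} (h : ∀ τ, d.Γ τ w = d.Γ τ w') : w = w' :=
  hinj (d.cls_eq_of_Γ_eq hT₀ (h (Classical.arbitrary T)))

end EchData

/-! ### the fields `good_gen`, `sum_gen`, `sep` of `KMGeom` (`K = ℚ̄`) -/

section Qbar

local notation "Kb" => AlgebraicClosure ℚ

variable {G F W T : Type} [Group G] [Field F] [Algebra Kb F] [AddCommGroup W]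
  {d : EchData G Kb F W T} {n₄ : ℕ} (μ : d.MulTable n₄)

theorem EchData.kmData_eq_kmDataAt (τ : T) (x y : W) :
    EchData.kmData μ τ x y = kmDataAt μ.m₁ μ.m₂ (d.Γ τ) (d.X τ) x y := rfl

/-- the field `good_gen` of `KMGeom`. -/
theorem EchData.good_gen (hT₀ : 4 * (genusFF Kb F : ℤ) ≤ d.T₀) {ρ : ℕ}
    (hρ : (ρ : ℤ) = 2 * d.T₀ + 1 - 3 * (genusFF Kb F : ℤ)) (τ : T) (x y : W) :
    KMGood (kmDataAt μ.m₁ μ.m₂ (d.Γ τ) (d.X τ) x y) ρ d.I₁ :=
  EchData.kmGood_gen μ hT₀ hρ τ x y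

/-- the field `sum_gen` of `KMGeom`. -/
theorem EchData.sum_gen (hT₀ : 4 * (genusFF Kb F : ℤ) ≤ d.T₀) (τ : T) (x y : W) :
    LinearMap.range (d.Γ τ (x + y)).mulVecLin
      = (kmDataAt μ.m₁ μ.m₂ (d.Γ τ) (d.X τ) x y).W₃ :=
  EchData.range_Γ_add μ hT₀ τ x y

end Qbar

end Fermat.Agent.FFGeom
end
end MergeWrap_Lib_FF_GeomGood
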