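import Mathlib
import Fermat.Agent.MU.Lib.FF.RedGood
import Fermat.Agent.MU.Lib.FF.GeomEch
import Fermat.Agent.MU.Lib.FF.GeomDefs
import Fermat.Agent.Lib.FF.PlacesQbar

section MergeWrap_Lib_FF_GeomInt -- from Lib/FF/GeomInt.lean

/-!
# S19 / route R-G, piece G-c (helper12): integrality of the echelon coordinates

For an `EchData` (Lib/FF/GeomEch.lean) whose bases are orthonormal at a constant reduction `S`
and whose divisors `D τ w` have GOOD reduction (`IsGoodDiv (r P) (redDiv r (D τ w))`):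

* `EchData.Γ_mem`, `EchData.X_mem` : the entries of `Γ τ w`, `X τ` lie in the valuation ring
  `S.A` (seat D2, `RedGood.echelon_entries_of_isGoodDiv`);
* `EchData.Γ_int`, `EchData.X_int` : over `ℚ̄` with the Galois group acting through its natural
  action on the constants, for `𝒮 : GeomSetup p F Fk A₀`: the entries are integral over
  `ℤ_(p)` (all conjugates lie in `A₀`, by equivariance; `pl_isIntegral_of_forall_conj`).

These are the fields `Γ_int`, `X_int` of `KMGeom` (`Lx_int` is `EchData.Lx_int`).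
-/

set_option autoImplicit false

noncomputable section

open AlgebraicCurve GaloisRep Fermat.Agent.RR Fermat.Agent.Deuring Fermat.Agent.FFGoodEll
  Fermat.Agent.FF Fermat.Agent.FFGal

namespace Fermat.Agent.FFGeom

namespace EchData

section Abstract

variable {G K F W T : Type} [Group G] [Field K] [Field F] [Algebra K F] [AddCommGroup W]
  {k Fk : Type*} [Field k] [Field Fk] [Algebra k Fk]

/-- the entries of `Γ τ w` lie in the valuation ring. -/
theorem Γ_mem (e : EchData G K F W T) (S : ValSetup K F k Fk) (hL : HasLattice S)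
    {r : Place K F → Place k Fk} (hr : IsReduction S r)
    (hg : genusFF K F = genusFF k Fk)
    (int₁ : ∀ i, e.b₁ i ∈ S.Ov) (red₁ : LinearIndependent k fun i => S.red (e.b₁ i))
    (hT₀ : 3 * (genusFF K F : ℤ) ≤ e.T₀) (τ : T) (w : W)
    (hgood : IsGoodDiv (r e.P) (redDiv r (e.D τ w))) (i : Fin e.n₁) (a : Fin e.r) :
    e.Γ τ w i a ∈ S.A := by
  obtain ⟨h, -, -⟩ := echelon_entries_of_isGoodDiv S hL hr hg e.P hT₀ e.hr e.b₁ int₁ red₁
    e.span₁ e.I₁ e.chart₁ (e.D_nonneg τ w) (e.degree_D τ w) hgood (e.Γ τ w) (e.Γ_ech τ w)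
    (e.colSpan_Γ τ w)
  exact h i a

/-- the entries of `X τ` lie in the valuation ring. -/
theorem X_mem (e : EchData G K F W T) (S : ValSetup K F k Fk) (hL : HasLattice S)
    {r : Place K F → Place k Fk} (hr : IsReduction S r)
    (hg : genusFF K F = genusFF k Fk)
    (int₂ : ∀ i, e.b₂ i ∈ S.Ov) (red₂ : LinearIndependent k fun i => S.red (e.b₂ i))
    (hT₀ : 3 * (genusFF K F : ℤ) ≤ 2 * e.T₀) (τ : T)
    (hgood : IsGoodDiv (r e.P) (redDiv r (e.E τ))) (i : Fin e.n₂) (a : Fin e.e₂) :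
    e.X τ i a ∈ S.A := by
  obtain ⟨h, -, -⟩ := echelon_entries_of_isGoodDiv S hL hr hg e.P hT₀ e.he₂ e.b₂ int₂ red₂
    e.span₂ e.I₂ e.chart₂ (e.E_nonneg τ) (e.E_deg τ) hgood (e.X τ) (e.X_ech τ)
    (e.colSpan_X τ)
  exact h i a

end Abstract

section GeomSetup

local notation "Kb" => AlgebraicClosure ℚ
local notation "GK" => (AlgebraicClosure ℚ ≃ₐ[ℚ] AlgebraicClosure ℚ)

variable {p : ℕ} {F' Fk' : Type} [Field F'] [Algebra Kb F'] {A₀ : ValuationSubring Kb}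
  [Field Fk'] [Algebra (IsLocalRing.ResidueField A₀) Fk'] {W' T' : Type} [AddCommGroup W']

/-- **`Γ_int`**: the entries of `Γ τ w` are integral over `ℤ_(p)`. -/
theorem Γ_int (hp : p.Prime) (𝒮 : GeomSetup p F' Fk' A₀) (e : EchData GK Kb F' W' T')
    (hgal : ∀ (σ : GK) (c : Kb), SemilinearAut.baseAut (e.gal σ) c = σ c)
    (int₁ : ∀ i, e.b₁ i ∈ 𝒮.S.Ov)
    (red₁ : LinearIndependent (IsLocalRing.ResidueField A₀) fun i => 𝒮.S.red (e.b₁ i))
    (hT₀ : 3 * (genusFF Kb F' : ℤ) ≤ e.T₀)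
    (hgood : ∀ τ w, IsGoodDiv (𝒮.r e.P) (redDiv 𝒮.r (e.D τ w)))
    (τ : T') (w : W') (i : Fin e.n₁) (a : Fin e.r) :
    IsIntegral (ratLocalizedAt p) (e.Γ τ w i a) := by
  refine pl_isIntegral_of_forall_conj hp A₀ 𝒮.hA₀ fun σ => ?_
  rw [← hgal σ, ← e.Γ_equiv_apply σ τ w i a, ← 𝒮.S_A]
  exact e.Γ_mem 𝒮.S 𝒮.hL 𝒮.hr 𝒮.hg int₁ red₁ hT₀ _ _ (hgood _ _) i a

/-- **`X_int`**: the entries of `X τ` are integral over `ℤ_(p)`. -/
theorem X_int (hp : p.Prime) (𝒮 : GeomSetup p F' Fk' A₀) (e : EchData GK Kb F' W' T')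
    (hgal : ∀ (σ : GK) (c : Kb), SemilinearAut.baseAut (e.gal σ) c = σ c)
    (int₂ : ∀ i, e.b₂ i ∈ 𝒮.S.Ov)
    (red₂ : LinearIndependent (IsLocalRing.ResidueField A₀) fun i => 𝒮.S.red (e.b₂ i))
    (hT₀ : 3 * (genusFF Kb F' : ℤ) ≤ 2 * e.T₀)
    (hgood : ∀ τ w, IsGoodDiv (𝒮.r e.P) (redDiv 𝒮.r (e.D τ w)))
    (τ : T') (i : Fin e.n₂) (a : Fin e.e₂) :
    IsIntegral (ratLocalizedAt p) (e.X τ i a) := by
  refine pl_isIntegral_of_forall_conj hp A₀ 𝒮.hA₀ fun σ => ?_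
  rw [← hgal σ, ← e.X_equiv_apply σ τ i a, ← 𝒮.S_A]
  refine e.X_mem 𝒮.S 𝒮.hL 𝒮.hr 𝒮.hg int₂ red₂ hT₀ _ ?_ i a
  have := hgood (e.perm σ τ) 0
  rwa [e.D_zero] at this

end GeomSetup

end EchData

end Fermat.Agent.FFGeom
end
end MergeWrap_Lib_FF_GeomInt
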